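import Mathlib.Tactic.Ring

/-!
# The family of curves with the three-torsion of a given curve: the forms

For invariants `c₄, c₆` the forms `cFour, cSix` of degree `4, 6` and `cusp` of degree `4` satisfy
`cFour ^ 3 - cSix ^ 2 = (c₄ ^ 3 - c₆ ^ 2) * cusp ^ 3`; at `(1, 0)` they give `c₄, c₆, 1`.
-/

set_option autoImplicit false

namespace Fermat.Agent.Row42

variable {R S : Type*} [CommRing R] [CommRing S]

/-- The cuspidal form of degree four. -/
def cusp (a b l m : R) : R :=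
  l ^ 4 - 6 * a * l ^ 2 * m ^ 2 - 8 * b * l * m ^ 3 - 3 * a ^ 2 * m ^ 4

/-- The invariant `c₄` of the family. -/
def cFour (a b l m : R) : R :=
  a * l ^ 4 + 4 * b * l ^ 3 * m + 6 * a ^ 2 * l ^ 2 * m ^ 2 + 4 * a * b * l * m ^ 3
    - (3 * a ^ 3 - 4 * b ^ 2) * m ^ 4

/-- The invariant `c₆` of the family. -/
def cSix (a b l m : R) : R :=
  b * l ^ 6 + 6 * a ^ 2 * l ^ 5 * m + 15 * a * b * l ^ 4 * m ^ 2 + 20 * b ^ 2 * l ^ 3 * m ^ 3
    + 15 * a ^ 2 * b * l ^ 2 * m ^ 4 + 6 * (3 * a ^ 4 - 2 * a * b ^ 2) * l * m ^ 5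
    + (9 * a ^ 3 * b - 8 * b ^ 3) * m ^ 6

/-- The discriminant relation. -/
theorem cFour_cube_sub_cSix_sq (a b l m : R) :
    cFour a b l m ^ 3 - cSix a b l m ^ 2 = (a ^ 3 - b ^ 2) * cusp a b l m ^ 3 := by
  simp only [cFour, cSix, cusp]
  ring

theorem map_cusp (f : R →+* S) (a b l m : R) :
    f (cusp a b l m) = cusp (f a) (f b) (f l) (f m) := by
  simp [cusp, map_ofNat]

theorem map_cFour (f : R →+* S) (a b l m : R) :
    f (cFour a b l m) = cFour (f a) (f b) (f l) (f m) := by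
  simp [cFour, map_ofNat]

theorem map_cSix (f : R →+* S) (a b l m : R) :
    f (cSix a b l m) = cSix (f a) (f b) (f l) (f m) := by
  simp [cSix, map_ofNat]

end Fermat.Agent.Row42
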