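import Fermat.Prelude.Def_FLTPrelim_ModularRep
import Fermat.Agent.Row42.Forms

/-!
# Interfaces for residual modularity at three of semistable curves

* `MemberLemma`: members of the three-torsion family with prescribed local behaviour;
* `SwitchA`: a switch directly to the shape of the two-adic theorem;
* `SwitchB`: a switch to a curve to which lifting at five applies;
* `SwitchFive`: from the latter, a switch on five-torsion to the two-adic shape.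
-/

set_option autoImplicit false

open WeierstrassCurve

namespace Fermat.Agent.Row42

/-- Congruent traces modulo `p` at common good primes. -/
def Congr (p : ℕ) (W W' : WeierstrassCurve ℤ) : Prop :=
  ∀ ℓ : ℕ, ℓ.Prime → ℓ ≠ p → W.IsGoodPrimeFor ℓ → W'.IsGoodPrimeFor ℓ →
    (p : ℤ) ∣ W'.apOfModel ℓ - W.apOfModel ℓ

/-- The short model of the invariants has no rational point of order two. -/
def NoRootTwo (W : WeierstrassCurve ℤ) : Prop :=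
  ∀ x : ℚ, x ^ 3 + (-27 * (W.c₄ : ℚ)) * x + (-54 * (W.c₆ : ℚ)) ≠ 0

/-- The hypotheses of `Route.SwitchModular`. -/
def SwitchShape (W : WeierstrassCurve ℤ) : Prop :=
  W.IsSemistableModel ∧ W.Δ < 0 ∧
    (∃ (k : ℕ) (r : ℤ), 0 < k ∧ W.Δ = 4 ^ k * r ∧ r % 8 = 5) ∧ NoRootTwo W

/-- Members of the three-torsion family of `W`.

The parameter is congruent to `(u₀, v₀)` modulo `M`, a multiple of every prime dividing `6Δ`.
At `2` and `3` the member has the reduction of the reference model `V` (after scaling by `2ᵉ`);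
at the other primes of `M` semistability is read off from the values of the forms at `(u₀, v₀)`.
The sign of the discriminant is that of `σ`. -/
def MemberLemma : Prop :=
  ∀ (W : WeierstrassCurve ℤ), W.Δ ≠ 0 → W.IsSemistableModel →
  ∀ (V : WeierstrassCurve ℤ) (e M : ℕ) (u₀ v₀ σ : ℤ), σ ≠ 0 → M ≠ 0 →
    (∀ q : ℕ, q.Prime → (q : ℤ) ∣ 6 * W.Δ → q ∣ M) →
    (∀ q : ℕ, q.Prime → q ∣ M → ¬((q : ℤ) ∣ u₀ ∧ (q : ℤ) ∣ v₀)) →
    (2 : ℤ) ^ (4 * e) * 41472 ∣ cFour W.c₄ W.c₆ u₀ v₀ - 2 ^ (4 * e) * V.c₄ →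
    (2 : ℤ) ^ (6 * e) * 5184 ∣ cSix W.c₄ W.c₆ u₀ v₀ - 2 ^ (6 * e) * V.c₆ →
    (∀ q : ℕ, (q = 2 ∨ q = 3) → (q : ℤ) ∣ V.Δ → ¬(q : ℤ) ∣ V.c₄) →
    (∀ q : ℕ, q.Prime → q ∣ M → q ≠ 2 → q ≠ 3 →
      ¬((q : ℤ) ∣ W.Δ * cusp W.c₄ W.c₆ u₀ v₀ ∧ (q : ℤ) ∣ cFour W.c₄ W.c₆ u₀ v₀)) →
    ∃ (W' : WeierstrassCurve ℤ) (u v : ℤ),
      W'.Δ ≠ 0 ∧ 0 < σ * W'.Δ ∧ W'.IsSemistableModel ∧
      IsCoprime u v ∧ (M : ℤ) ∣ u - u₀ ∧ (M : ℤ) ∣ v - v₀ ∧
      cFour W.c₄ W.c₆ u v = 2 ^ (4 * e) * W'.c₄ ∧ cSix W.c₄ W.c₆ u v = 2 ^ (6 * e) * W'.c₆ ∧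
      2 ^ (12 * e) * W'.Δ = W.Δ * cusp W.c₄ W.c₆ u v ^ 3 ∧
      (W'.reductionMod 2 = V.reductionMod 2 ∧ W'.reductionMod 3 = V.reductionMod 3) ∧
      NoRootTwo W' ∧ Congr 3 W W'

/-- Multiplicative at `2`, or good with `3 ∣ a₂`: a switch to the two-adic shape. -/
def SwitchA : Prop :=
  ∀ W : WeierstrassCurve ℤ, W.Δ ≠ 0 → W.IsSemistableModel →
    (¬ W.IsGoodPrimeFor 2 ∨ (3 : ℤ) ∣ W.apOfModel 2) →
    ∃ W' : WeierstrassCurve ℤ, SwitchShape W' ∧ Congr 3 W W' ∧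
      (W.IsGoodPrimeFor 3 → W'.IsGoodPrimeFor 3)

/-- A curve to which lifting at five applies, and which can be switched on five-torsion. -/
def LiftableAtFive (W : WeierstrassCurve ℤ) : Prop :=
  W.Δ ≠ 0 ∧ W.IsSemistableModel ∧ W.IsGoodPrimeFor 2 ∧
    (W.apOfModel 2 = 2 ∨ W.apOfModel 2 = -2) ∧ W.ModRepIsIrreducible 5 ∧
    (¬ W.IsGoodPrimeFor 5 ∨
      (¬ (5 : ℤ) ∣ W.apOfModel 5 ∧ ¬ (5 : ℤ) ∣ W.apOfModel 5 ^ 2 - 1))

/-- Good at `2` with `3 ∤ a₂`: a switch to a curve to which lifting at five applies. -/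
def SwitchB : Prop :=
  ∀ W : WeierstrassCurve ℤ, W.Δ ≠ 0 → W.IsSemistableModel → W.IsGoodPrimeFor 2 →
    ¬ (3 : ℤ) ∣ W.apOfModel 2 →
    ∃ W' : WeierstrassCurve ℤ, LiftableAtFive W' ∧ Congr 3 W W' ∧
      (W.IsGoodPrimeFor 3 → W'.IsGoodPrimeFor 3)

/-- The switch on five-torsion from good reduction at `2` with `a₂ = ±2`. -/
def SwitchFive : Prop :=
  ∀ W : WeierstrassCurve ℤ, W.Δ ≠ 0 → W.IsSemistableModel → W.IsGoodPrimeFor 2 →
    (W.apOfModel 2 = 2 ∨ W.apOfModel 2 = -2) →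
    ∃ W' : WeierstrassCurve ℤ, SwitchShape W' ∧ Congr 5 W W'

/-- A semistable curve has the three-torsion traces of a modular one of squarefree level. -/
def ModularPartner : Prop :=
  ∀ W : WeierstrassCurve ℤ, W.Δ ≠ 0 → W.IsSemistableModel →
    ∃ (W' : WeierstrassCurve ℤ) (N : ℕ), W'.Δ ≠ 0 ∧ 0 < N ∧ Squarefree N ∧
      (∀ q : ℕ, q.Prime → q ∣ N → (q : ℤ) ∣ W'.Δ) ∧ W'.IsModularModelOfLevel N ∧ Congr 3 W W' ∧
      (W.IsGoodPrimeFor 3 → W'.IsGoodPrimeFor 3)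

end Fermat.Agent.Row42
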