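import Fermat.Agent.Row42.TorsionIso
import Fermat.Agent.Row42.Goals
import Fermat.Agent.ThreeFive.Galois
import Fermat.Agent.EllFrobenius.Rat
import Fermat.Agent.Frobenius.Exists

/-!
# Galois modules of members of the three-torsion family
-/

set_option autoImplicit false

namespace Fermat.Agent.Row42

open WeierstrassCurve Fermat.Agent.ThreeFive
open scoped WeierstrassCurve.Affine

local notation "Qb" => AlgebraicClosure ℚ

variable {K : Type*} [Field K]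

lemma cFour_div (c4 c6 u v : K) (hu : u ≠ 0) :
    cFour c4 c6 1 (v / u) = cFour c4 c6 u v / u ^ 4 := by
  simp only [cFour]; field_simp

lemma cSix_div (c4 c6 u v : K) (hu : u ≠ 0) :
    cSix c4 c6 1 (v / u) = cSix c4 c6 u v / u ^ 6 := by
  simp only [cSix]; field_simp

/-- Equivariant three-torsion isomorphism between `E` and a member of its family. -/
theorem exists_equivariant_iso (E E' : WeierstrassCurve ℚ) (hE : E.Δ ≠ 0) (hE' : E'.Δ ≠ 0)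
    (u v s : ℚ) (hu : u ≠ 0) (hs : s ≠ 0) (e4 : s ^ 4 * E'.c₄ = cFour E.c₄ E.c₆ u v)
    (e6 : s ^ 6 * E'.c₆ = cSix E.c₄ E.c₆ u v) :
    ∃ e : Submodule.torsionBy ℤ (E⁄Qb).Point ((3 : ℕ) : ℤ) ≃+
        Submodule.torsionBy ℤ (E'⁄Qb).Point ((3 : ℕ) : ℤ),
      ∀ (σ : Qb ≃ₐ[ℚ] Qb) x, e (σ • x) = σ • e x := by
  classical
  have h : E.c₄ ^ 3 ≠ E.c₆ ^ 2 := by
    rw [← sub_ne_zero, ← E.c_relation]; exact mul_ne_zero (by norm_num) hE
  have hsu : s / u ≠ 0 := div_ne_zero hs hu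
  have f4 : (s / u) ^ 4 * E'.c₄ = cFour E.c₄ E.c₆ 1 (v / u) := by
    rw [cFour_div _ _ _ _ hu, ← e4, div_pow, div_mul_eq_mul_div]
  have f6 : (s / u) ^ 6 * E'.c₆ = cSix E.c₄ E.c₆ 1 (v / u) := by
    rw [cSix_div _ _ _ _ hu, ← e6, div_pow, div_mul_eq_mul_div]
  have ht : cFour E.c₄ E.c₆ 1 (v / u) ^ 3 ≠ cSix E.c₄ E.c₆ 1 (v / u) ^ 2 := by
    rw [← sub_ne_zero, ← f4, ← f6]
    have : ((s / u) ^ 4 * E'.c₄) ^ 3 - ((s / u) ^ 6 * E'.c₆) ^ 2 =
        (s / u) ^ 12 * (1728 * E'.Δ) := by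
      rw [E'.c_relation]; ring
    rw [this]; exact mul_ne_zero (pow_ne_zero _ hsu) (mul_ne_zero (by norm_num) hE')
  obtain ⟨T, hT⟩ := exists_rat_short E hE 1 one_ne_zero (d4 := E.c₄)
    (d6 := E.c₆) (by ring) (by ring)
  obtain ⟨T', hT'⟩ := exists_rat_short E' hE' (s / u) hsu f4 f6
  obtain ⟨m, hm⟩ := exists_torsion_iso (K := Qb) h
    (fun d4 d6 hd => by
      have := SW_natCard_torsion hd 3 (by norm_num)
      simpa using this) (v / u) ht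
  refine ⟨(torsionEquiv T ((3 : ℕ) : ℤ)).trans (m.trans (torsionEquiv T' ((3 : ℕ) : ℤ)).symm),
    fun σ x => ?_⟩
  set g := (torsionEquiv T ((3 : ℕ) : ℤ)).trans (m.trans (torsionEquiv T' ((3 : ℕ) : ℤ)).symm)
    with hg
  apply (torsionEquiv T' ((3 : ℕ) : ℤ)).injective
  have h1 : torsionEquiv T ((3 : ℕ) : ℤ) (σ • x) = mapThree (σ : Qb ≃+* Qb).toRingHom
      (fixes_rat (σ : Qb ≃+* Qb) _) (fixes_rat (σ : Qb ≃+* Qb) _)
      (torsionEquiv T ((3 : ℕ) : ℤ) x) :=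
    Subtype.ext (hT σ x.1)
  have h2 : ∀ y, torsionEquiv T' ((3 : ℕ) : ℤ) (σ • y) = mapThree (σ : Qb ≃+* Qb).toRingHom
      (fixes_rat (σ : Qb ≃+* Qb) _) (fixes_rat (σ : Qb ≃+* Qb) _)
      (torsionEquiv T' ((3 : ℕ) : ℤ) y) :=
    fun y => Subtype.ext (hT' σ y.1)
  rw [h2]
  have hgx : ∀ z, torsionEquiv T' ((3 : ℕ) : ℤ) (g z) = m (torsionEquiv T ((3 : ℕ) : ℤ) z) :=
    fun z => (torsionEquiv T' ((3 : ℕ) : ℤ)).apply_symm_apply _
  rw [hgx, hgx, ← hm]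
  exact congrArg m h1

/-- Congruent traces, from an equivariant three-torsion isomorphism. -/
theorem congr_three (W W' : WeierstrassCurve ℤ)
    (e : Submodule.torsionBy ℤ ((W.map (Int.castRingHom ℚ))⁄Qb).Point ((3 : ℕ) : ℤ) ≃+
      Submodule.torsionBy ℤ ((W'.map (Int.castRingHom ℚ))⁄Qb).Point ((3 : ℕ) : ℤ))
    (he : ∀ (σ : Qb ≃ₐ[ℚ] Qb) x, e (σ • x) = σ • e x) : Congr 3 W W' := by
  intro ℓ hℓ h3 hg hg'
  have : Fact ℓ.Prime := ⟨hℓ⟩
  have : Fact (Nat.Prime 3) := ⟨Nat.prime_three⟩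
  obtain ⟨A, hA⟩ := Frobenius.exists_liesOverPrime Qb hℓ
  obtain ⟨σ, hσ⟩ := Frobenius.exists_isFrobeniusAt_qbar hℓ hA
  have h1 := EllFrobenius.galoisTrace_eq_apOfModel W ℓ 3 h3 hg A σ hA hσ
  have h2 := EllFrobenius.galoisTrace_eq_apOfModel W' ℓ 3 h3 hg' A σ hA hσ
  rw [← galoisTrace_eq _ _ 3 e he σ, h1] at h2
  exact_mod_cast (ZMod.intCast_eq_intCast_iff_dvd_sub _ _ _).1 h2

/-- A member of the family of `W` has congruent traces modulo three. -/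
theorem congr_of_member {W W' : WeierstrassCurve ℤ} (hΔ : W.Δ ≠ 0) (hΔ' : W'.Δ ≠ 0)
    {u v : ℤ} (hu : u ≠ 0) {s : ℤ} (hs : s ≠ 0) (e4 : cFour W.c₄ W.c₆ u v = s ^ 4 * W'.c₄)
    (e6 : cSix W.c₄ W.c₆ u v = s ^ 6 * W'.c₆) : Congr 3 W W' := by
  obtain ⟨e, he⟩ := exists_equivariant_iso (W.map (Int.castRingHom ℚ))
    (W'.map (Int.castRingHom ℚ)) (by simp [hΔ]) (by simp [hΔ']) (u : ℚ) (v : ℚ) (s : ℚ)
    (by exact_mod_cast hu) (by exact_mod_cast hs)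
    (by
        simp only [map_c₄, map_c₆, eq_intCast, ← Int.cast_pow, ← Int.cast_mul, ← e4]
        simp [cFour])
    (by
        simp only [map_c₄, map_c₆, eq_intCast, ← Int.cast_pow, ← Int.cast_mul, ← e6]
        simp [cSix])
  exact congr_three W W' e he

end Fermat.Agent.Row42
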