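import Fermat.Agent.Row42.Member
import Fermat.Agent.Row42.SwitchA.Main
import Fermat.Agent.Row42.SwitchB.Final
import Fermat.Agent.Row42.SwitchFive.Final
import Fermat.Agent.Row38.IndexTwo
import Fermat.Agent.Route.SwitchFinal
import Fermat.Agent.Engine.Top.LiftingFinal
import Fermat.Agent.General.ExactConductor
import Fermat.Agent.General.Residual3
import Fermat.Agent.S51

/-!
# Every semistable curve has a modular partner with the same traces modulo three
-/

set_option autoImplicit false

open WeierstrassCurve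

namespace Fermat.Agent.Row42

/-- A semistable curve modular at a squarefree level is modular at one supported on its
discriminant. -/
theorem exists_supported_level {W : WeierstrassCurve ℤ} (hΔ : W.Δ ≠ 0)
    (hW : W.IsSemistableModel) {N : ℕ} (hsq : Squarefree N) (hN : W.IsModularModelOfLevel N) :
    ∃ M : ℕ, 0 < M ∧ Squarefree M ∧ (∀ q : ℕ, q.Prime → q ∣ M → (q : ℤ) ∣ W.Δ) ∧
      W.IsModularModelOfLevel M := by
  have : Fact (Nat.Prime 3) := ⟨Nat.prime_three⟩
  have : Fact (Nat.Prime 5) := ⟨Nat.prime_five⟩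
  obtain ⟨M, hM, hMsq, hsupp, hmod⟩ : Mlc1IsModularModelOfExactConductorLevel W := by
    rcases Fermat.Agent.S51.result W hΔ hW with h | h
    · exact General.exactConductor_of_squarefree hΔ hW h hsq hN
    · exact General.exactConductor_of_squarefree hΔ hW h hsq hN
  exact ⟨M, hM, hMsq, fun q hq h => (hsupp q hq).1 h, hmod⟩

/-- A curve to which lifting at five applies is modular. -/
theorem modular_of_liftable {W : WeierstrassCurve ℤ} (h : LiftableAtFive W) :
    ∃ N : ℕ, 0 < N ∧ Squarefree N ∧ (∀ q : ℕ, q.Prime → q ∣ N → (q : ℤ) ∣ W.Δ) ∧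
      W.IsModularModelOfLevel N := by
  have : Fact (Nat.Prime 5) := ⟨Nat.prime_five⟩
  obtain ⟨hΔ, hW, h2, ha2, hirr, h5⟩ := h
  obtain ⟨W₂, ⟨hss, hneg, hdisc, hcub⟩, hcongr⟩ := switchFive W hΔ hW h2 ha2
  obtain ⟨M, hM, hsq, hmod⟩ := Route.switchModular W₂ hss hneg hdisc hcub
  exact Engine.liftingAtFive W (Row38.residual_of_semistable hΔ hW le_rfl hirr) h5
    ⟨M, hsq, General.residuallyModular_of_congr hΔ hneg.ne hM hmod hcongr⟩

/-- **Every semistable curve has a modular partner.** -/
theorem modularPartner : ModularPartner := by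
  intro W hΔ hW
  by_cases h : ¬ W.IsGoodPrimeFor 2 ∨ (3 : ℤ) ∣ W.apOfModel 2
  · obtain ⟨W', ⟨hss, hneg, hdisc, hcub⟩, hcongr, h3⟩ := switchA memberLemma W hΔ hW h
    obtain ⟨N, -, hsq, hmod⟩ := Route.switchModular W' hss hneg hdisc hcub
    obtain ⟨M, hM, hMsq, hsupp, hmod'⟩ := exists_supported_level hneg.ne hss hsq hmod
    exact ⟨W', M, hneg.ne, hM, hMsq, hsupp, hmod', hcongr, h3⟩
  · rw [not_or, not_not] at h
    obtain ⟨W', hL, hcongr, h3⟩ := switchB W hΔ hW h.1 h.2
    obtain ⟨M, hM, hMsq, hsupp, hmod⟩ := modular_of_liftable hL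
    exact ⟨W', M, hL.1, hM, hMsq, hsupp, hmod, hcongr, h3⟩

/-- Residual modularity at three of semistable curves. -/
theorem residual3 : General.Residual3 := General.residual3_of modularPartner

end Fermat.Agent.Row42
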