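import Fermat.Agent.Row42.Pencil
import Mathlib.Analysis.Complex.Polynomial.Basic
import Mathlib.FieldTheory.Separable
import Mathlib.Tactic.ComputeDegree
import Mathlib.Tactic.FieldSimp

/-!
# The cubic of the family along a line has no polynomial root
-/

set_option autoImplicit false

namespace Fermat.Agent.Row42

open Polynomial

/-- Partial derivative of the cusp form in the first variable, divided by four. -/
def cuspX {R : Type*} [CommRing R] (a b x y : R) : R :=
  x ^ 3 - 3 * a * x * y ^ 2 - 2 * b * y ^ 3

/-- Partial derivative of the cusp form in the second variable, divided by `-12`. -/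
def cuspY {R : Type*} [CommRing R] (a b x y : R) : R :=
  a * x ^ 2 * y + 2 * b * x * y ^ 2 + a ^ 2 * y ^ 3

variable {K : Type*} [Field K] [CharZero K]

/-- The cusp form has no singular point. -/
lemma cusp_singular {a b x y : K} (h : a ^ 3 ≠ b ^ 2) (hx : cuspX a b x y = 0)
    (hy : cuspY a b x y = 0) : x = 0 ∧ y = 0 := by
  rcases eq_or_ne y 0 with rfl | hy0
  · exact ⟨by simpa [cuspX] using hx, rfl⟩
  exfalso
  simp only [cuspX] at hx
  simp only [cuspY] at hy
  have hq : a * x ^ 2 + 2 * b * x * y + a ^ 2 * y ^ 2 = 0 :=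
    mul_left_cancel₀ hy0 (by rw [mul_zero]; linear_combination hy)
  have h1 : 4 * x * (b ^ 2 - a ^ 3) * y ^ 2 = 0 := by
    linear_combination (a ^ 2) * hx - (a * x - 2 * b * y) * hq
  have hx0 : x = 0 := by simpa [sub_eq_zero, h.symm, hy0] using h1
  subst hx0
  have ha : a = 0 := by simpa [hy0] using hq
  have hb : b = 0 := by simpa [hy0] using hx
  exact h (by rw [ha, hb]; norm_num)

omit [CharZero K] in
lemma natDegree_line_le (P u : K) : (C P + C u * X).natDegree ≤ 1 := by compute_degree

/-- The cubic of the family along a line has no polynomial root. -/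
theorem no_branch {a b : ℂ} (h : a ^ 3 ≠ b ^ 2) {P Q u v : ℂ} (hδ : P * v - Q * u ≠ 0)
    (p : ℂ[X]) :
    p ^ 3 + (-27 * cFour (C a) (C b) (C P + C u * X) (C Q + C v * X)) * p +
      (-54 * cSix (C a) (C b) (C P + C u * X) (C Q + C v * X)) ≠ 0 := by
  intro h0
  set L := (C P + C u * X : ℂ[X]) with hL
  set M := (C Q + C v * X : ℂ[X]) with hM
  have dL : L.natDegree ≤ 1 := natDegree_line_le P u
  have dM : M.natDegree ≤ 1 := natDegree_line_le Q v
  set A := cFour (C a) (C b) L M with hA
  set B := cSix (C a) (C b) L M with hB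
  set D := cusp (C a) (C b) L M with hD
  have hA4 : A.natDegree ≤ 4 := by
    rw [hA, cFour]; compute_degree
    all_goals omega
  have hB6 : B.natDegree ≤ 6 := by
    rw [hB, cSix]; compute_degree
    all_goals omega
  have evL : ∀ t, L.eval t = P + u * t := fun t => by simp [hL]
  have evM : ∀ t, M.eval t = Q + v * t := fun t => by simp [hM]
  have evD : ∀ t, D.eval t = cusp a b (P + u * t) (Q + v * t) := fun t => by
    rw [hD, ← coe_evalRingHom, map_cusp, coe_evalRingHom, eval_C, eval_C, evL, evM]
  have dD : derivative D = 4 * C u * cuspX (C a) (C b) L M - 12 * C v * cuspY (C a) (C b) L M := by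
    simp only [hD, hL, hM, cusp, cuspX, cuspY, map_sub, map_add, derivative_mul, derivative_pow,
      derivative_C, derivative_X, derivative_ofNat]
    simp only [map_ofNat, Nat.cast_ofNat]
    push_cast
    ring
  have hsimple : ∀ t, D.eval t = 0 → (derivative D).eval t ≠ 0 := by
    intro t h1 h2
    rw [evD] at h1
    rw [dD] at h2
    simp only [eval_sub, eval_mul, eval_ofNat, eval_C, cuspX, cuspY, eval_add, eval_pow, evL,
      evM] at h2
    set x := P + u * t
    set y := Q + v * t
    have e1 : x * v - y * u ≠ 0 := by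
      rw [show x * v - y * u = P * v - Q * u by ring]; exact hδ
    have e2 : x * cuspX a b x y - 3 * y * cuspY a b x y = 0 := by
      simp only [cusp] at h1; simp only [cuspX, cuspY]; linear_combination h1
    have e3 : 4 * u * cuspX a b x y - 12 * v * cuspY a b x y = 0 := by
      simp only [cuspX, cuspY]; exact h2
    have hy : cuspY a b x y = 0 := by
      have : 12 * (x * v - y * u) * cuspY a b x y = 0 := by
        linear_combination (4 * u) * e2 - x * e3
      simpa [e1] using this
    have hx : cuspX a b x y = 0 := by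
      have : 4 * (x * v - y * u) * cuspX a b x y = 0 := by
        linear_combination (4 * v) * e2 - y * e3
      simpa [e1] using this
    obtain ⟨hx0, hy0⟩ := cusp_singular h hx hy
    exact e1 (by rw [hx0, hy0]; ring)
  have hD0 : D ≠ 0 := fun e => hsimple 0 (by simp [e]) (by simp [e])
  have hdeg : 3 ≤ D.natDegree := by
    by_contra hlt
    push Not at hlt
    have ev : ∀ t, cusp a b (P + u * t) (Q + v * t) =
        D.coeff 0 + D.coeff 1 * t + D.coeff 2 * t ^ 2 := fun t => by
      rw [← evD, eval_eq_sum_range' hlt]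
      simp [Finset.sum_range_succ]
    have z4 : cusp a b u v = 0 := by
      have h1 := ev 1; have h2 := ev (-1); have h3 := ev 2; have h4 := ev (-2); have h5 := ev 0
      simp only [cusp] at h1 h2 h3 h4 h5 ⊢
      linear_combination (1 / 24 : ℂ) * (h3 + h4) - (1 / 6 : ℂ) * (h1 + h2) + (1 / 4 : ℂ) * h5
    have z3 : 4 * P * cuspX a b u v - 12 * Q * cuspY a b u v = 0 := by
      have h1 := ev 1; have h2 := ev (-1); have h3 := ev 2; have h4 := ev (-2)
      simp only [cusp] at h1 h2 h3 h4
      simp only [cuspX, cuspY]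
      linear_combination (1 / 12 : ℂ) * (h3 - h4) - (1 / 6 : ℂ) * (h1 - h2)
    have e2 : u * cuspX a b u v - 3 * v * cuspY a b u v = 0 := by
      simp only [cusp] at z4; simp only [cuspX, cuspY]; linear_combination z4
    have hy : cuspY a b u v = 0 := by
      have : 12 * (P * v - Q * u) * cuspY a b u v = 0 := by
        linear_combination u * z3 - 4 * P * e2
      simpa [hδ] using this
    have hx : cuspX a b u v = 0 := by
      have : 4 * (P * v - Q * u) * cuspX a b u v = 0 := by
        linear_combination v * z3 - 4 * Q * e2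
      simpa [hδ] using this
    obtain ⟨hu0, hv0⟩ := cusp_singular h hx hy
    exact hδ (by rw [hu0, hv0]; ring)
  have hp : p.natDegree ≤ 2 := by
    by_contra hlt
    push Not at hlt
    have h3 : (p ^ 3).natDegree = 3 * p.natDegree := natDegree_pow p 3
    have h1 : ((-27 * A) * p + -54 * B).natDegree < (p ^ 3).natDegree := by
      refine lt_of_le_of_lt (natDegree_add_le _ _) (max_lt ?_ ?_)
      · refine lt_of_le_of_lt natDegree_mul_le ?_
        have : (-27 * A : ℂ[X]).natDegree ≤ 4 := by
          rw [neg_mul, natDegree_neg, ← C_ofNat]; exact (natDegree_C_mul_le _ _).trans hA4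
        omega
      · have : (-54 * B : ℂ[X]).natDegree ≤ 6 := by
          rw [neg_mul, natDegree_neg, ← C_ofNat]; exact (natDegree_C_mul_le _ _).trans hB6
        omega
    have := natDegree_add_eq_left_of_natDegree_lt h1
    rw [← add_assoc, h0, natDegree_zero] at this
    omega
  set w := 3 * p ^ 2 + -27 * A with hw
  set z := 3 * p ^ 2 + 4 * (-27 * A) with hz
  have key : w ^ 2 * z = C (-78732 * (a ^ 3 - b ^ 2)) * D ^ 3 := by
    have e := cFour_cube_sub_cSix_sq (C a) (C b) L M
    rw [← hA, ← hB, ← hD] at e
    simp only [map_mul, map_neg, map_sub, map_pow, map_ofNat]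
    rw [hw, hz]
    linear_combination (27 * (p ^ 3 + (-27 * A) * p - (-54 * B))) * h0 + (-78732 : ℂ[X]) * e
  have hroot : ∀ t, D.eval t = 0 → (X - C t) ^ 3 ∣ z := by
    intro t ht
    obtain ⟨G, hG⟩ := dvd_iff_isRoot.2 (show D.IsRoot t from ht)
    have hG0 : G.eval t ≠ 0 := by
      intro e; apply hsimple t ht; rw [hG, derivative_mul]; simp [e]
    have hA0 : A.eval t ≠ 0 := by
      intro e
      rw [hA, ← coe_evalRingHom, map_cFour, coe_evalRingHom, eval_C, eval_C, evL, evM] at e
      rw [evD] at ht
      have h36 : (36 : ℂ) * (a ^ 3 - b ^ 2) ^ 2 ≠ 0 :=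
        mul_ne_zero (by norm_num) (pow_ne_zero _ (sub_ne_zero.2 h))
      have l := bezout_left a b (P + u * t) (Q + v * t)
      have r := bezout_right a b (P + u * t) (Q + v * t)
      rw [e, ht, mul_zero, mul_zero, add_zero] at l r
      have l' := (mul_eq_zero.1 l.symm).resolve_left h36
      have r' := (mul_eq_zero.1 r.symm).resolve_left h36
      rw [pow_eq_zero_iff (by norm_num)] at l' r'
      exact hδ (by linear_combination v * l' - u * r')
    have hc : (-78732 : ℂ) * (a ^ 3 - b ^ 2) ≠ 0 := mul_ne_zero (by norm_num) (sub_ne_zero.2 h)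
    have hw0 : w.eval t ≠ 0 := by
      intro e
      have hz0 : z.eval t ≠ 0 := by
        intro e'; apply hA0
        simp only [hw, eval_add, eval_mul, eval_pow, eval_ofNat, eval_neg] at e
        simp only [hz, eval_add, eval_mul, eval_pow, eval_ofNat, eval_neg] at e'
        linear_combination (-1 / 81 : ℂ) * e' + (1 / 81 : ℂ) * e
      obtain ⟨w1, hw1⟩ := dvd_iff_isRoot.2 (show w.IsRoot t from e)
      have hXne : (X - C t : ℂ[X]) ≠ 0 := X_sub_C_ne_zero t
      have k1 : w1 ^ 2 * z = (X - C t) * (C (-78732 * (a ^ 3 - b ^ 2)) * G ^ 3) := by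
        refine mul_left_cancel₀ (pow_ne_zero 2 hXne) ?_
        rw [hw1, hG] at key; linear_combination key
      have e1 : w1.eval t = 0 := by
        have := congrArg (Polynomial.eval t) k1
        simpa [hz0] using this
      obtain ⟨w2, hw2⟩ := dvd_iff_isRoot.2 (show w1.IsRoot t from e1)
      have k2 : (X - C t) * (w2 ^ 2 * z) = C (-78732 * (a ^ 3 - b ^ 2)) * G ^ 3 := by
        refine mul_left_cancel₀ hXne ?_
        rw [hw2] at k1; linear_combination k1
      have := congrArg (Polynomial.eval t) k2
      simp [hG0] at this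
      exact h (sub_eq_zero.1 this)
    have hcop : IsCoprime ((X - C t) ^ 3) (w ^ 2) :=
      (((irreducible_X_sub_C t).coprime_iff_not_dvd).2
        (fun hd => hw0 (dvd_iff_isRoot.1 hd))).pow
    refine hcop.dvd_of_dvd_mul_left ⟨C (-78732 * (a ^ 3 - b ^ 2)) * G ^ 3, ?_⟩
    rw [key, hG]; ring
  have hnodup : D.roots.Nodup := by
    refine Multiset.nodup_iff_count_le_one.2 fun t => ?_
    rw [count_roots]
    by_contra hlt
    push Not at hlt
    obtain ⟨h1, h2⟩ := (one_lt_rootMultiplicity_iff_isRoot hD0).1 hlt
    exact hsimple t h1 h2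
  have hcard : D.roots.toFinset.card = D.natDegree := by
    rw [Multiset.toFinset_card_of_nodup hnodup, IsAlgClosed.card_roots_eq_natDegree]
  have hprod : (∏ t ∈ D.roots.toFinset, (X - C t) ^ 3) ∣ z := by
    refine Finset.prod_dvd_of_coprime ?_ fun t ht =>
      hroot t (isRoot_of_mem_roots (Multiset.mem_toFinset.1 ht))
    intro x _ y _ hxy
    exact (pairwise_coprime_X_sub_C Function.injective_id hxy).pow
  have hzd : z.natDegree ≤ 4 := by
    rw [hz]
    refine (natDegree_add_le _ _).trans (max_le ?_ ?_)
    · rw [← C_ofNat]; exact (natDegree_C_mul_le _ _).trans (natDegree_pow_le.trans (by omega))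
    · rw [show (4 : ℂ[X]) * (-27 * A) = C (-108) * A by rw [map_neg, map_ofNat]; ring]
      exact (natDegree_C_mul_le _ _).trans hA4
  have hz0 : z = 0 := by
    by_contra hz0
    have h9 := (natDegree_le_of_dvd hprod hz0).trans hzd
    rw [natDegree_prod _ _ fun t _ => pow_ne_zero _ (X_sub_C_ne_zero t)] at h9
    simp [natDegree_pow, hcard] at h9
    omega
  rw [hz0, mul_zero] at key
  simp [hD0, sub_eq_zero] at key
  exact h (C_injective (by simpa using key))

end Fermat.Agent.Row42
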