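import Fermat.Agent.Row42.Branch
import Fermat.Agent.ThreeFive.HilbertCubic
import Mathlib.RingTheory.Polynomial.RationalRoot

/-!
# Far out on a line of parameters the cubic has no integral root
-/

set_option autoImplicit false

namespace Fermat.Agent.Row42

open Polynomial Fermat.Agent.ThreeFive

variable {a b : ℤ}

/-- For arbitrarily large `k` the cubic at `(u₁, v₁) + k (P, Q)` has no integral root. -/
theorem exists_no_int_root (h : a ^ 3 ≠ b ^ 2) (P Q u₁ v₁ : ℤ)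
    (hδ : P * v₁ - Q * u₁ ≠ 0) (hD : cusp a b P Q ≠ 0) (K₀ : ℕ) :
    ∃ k : ℕ, K₀ ≤ k ∧ ∀ z : ℤ,
      z ^ 3 + (-27 * cFour a b (u₁ + k * P) (v₁ + k * Q)) * z +
        (-54 * cSix a b (u₁ + k * P) (v₁ + k * Q)) ≠ 0 := by
  set A : ℝ[X] := -27 * cFour (C (a : ℝ)) (C (b : ℝ)) (C (P : ℝ) + C (u₁ : ℝ) * X)
    (C (Q : ℝ) + C (v₁ : ℝ) * X) with hA
  set B : ℝ[X] := -54 * cSix (C (a : ℝ)) (C (b : ℝ)) (C (P : ℝ) + C (u₁ : ℝ) * X)
    (C (Q : ℝ) + C (v₁ : ℝ) * X) with hB
  have evA : ∀ t : ℝ, A.eval t = -27 * cFour (a : ℝ) b (P + u₁ * t) (Q + v₁ * t) := fun t => by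
    simp [hA, cFour]
  have evB : ∀ t : ℝ, B.eval t = -54 * cSix (a : ℝ) b (P + u₁ * t) (Q + v₁ * t) := fun t => by
    simp [hB, cSix]
  have hab : cFour a b P Q ^ 3 - cSix a b P Q ^ 2 ≠ 0 := by
    rw [cFour_cube_sub_cSix_sq]
    exact mul_ne_zero (sub_ne_zero.2 h) (pow_ne_zero _ hD)
  obtain ⟨k, hk, hroot⟩ := Hilbert.exists_no_root_cubic A B
    (fun α hα hc => by
      simp only [Hilbert.cubic, evA, evB, mul_zero, add_zero] at hc hα
      have e1 : cFour (a : ℝ) b P Q = α ^ 2 / 9 := by linarith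
      have e2 : cSix (a : ℝ) b P Q = -α ^ 3 / 27 := by
        rw [e1] at hα; linear_combination (-1 / 54 : ℝ) * hα
      apply hab
      have : (((cFour a b P Q ^ 3 - cSix a b P Q ^ 2 : ℤ)) : ℝ) = 0 := by
        push_cast [cFour, cSix] at e1 e2 ⊢
        rw [e1, e2]; ring
      exact_mod_cast this)
    (fun q _ e => by
      have h' : ((a : ℤ) : ℂ) ^ 3 ≠ ((b : ℤ) : ℂ) ^ 2 := by exact_mod_cast h
      have hδC : (P : ℂ) * (v₁ : ℂ) - (Q : ℂ) * (u₁ : ℂ) ≠ 0 := by exact_mod_cast hδ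
      refine no_branch h' hδC (q.map Complex.ofRealHom) ?_
      have e' := congrArg (Polynomial.mapRingHom Complex.ofRealHom) e
      simp only [hA, hB, map_add, map_mul, map_pow, map_neg, map_ofNat, map_zero, map_cFour,
        map_cSix, coe_mapRingHom, Polynomial.map_X, map_intCast] at e'
      exact e')
    (max K₀ 1)
  refine ⟨k, le_trans (le_max_left _ _) hk, fun z hz => ?_⟩
  have hk1 : 1 ≤ k := le_trans (le_max_right _ _) hk
  have hkR : (k : ℝ) ≠ 0 := by exact_mod_cast (by omega : k ≠ 0)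
  refine hroot ((z : ℝ) / (k : ℝ) ^ 2) ?_ (z * (k : ℤ) ^ 8) ?_
  · simp only [Hilbert.cubic, evA, evB]
    have hzR := congrArg (fun x : ℤ => (x : ℝ)) hz
    simp only [cFour, cSix] at hzR ⊢
    push_cast at hzR
    field_simp
    linear_combination hzR
  · push_cast
    field_simp

/-- A rational root of the cubic of integral invariants is integral. -/
theorem noRoot_of_no_int_root {a b : ℤ} (h : ∀ z : ℤ, z ^ 3 + (-27 * a) * z + (-54 * b) ≠ 0)
    (x : ℚ) : x ^ 3 + (-27 * (a : ℚ)) * x + (-54 * (b : ℚ)) ≠ 0 := by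
  intro hx
  have hint : IsIntegral ℤ x := by
    refine ⟨X ^ 3 + (C (-27 * a) * X + C (-54 * b)), monic_X_pow_add ?_, ?_⟩
    · calc _ ≤ ((1 : ℕ) : WithBot ℕ) := by compute_degree!
        _ < _ := by norm_num
    · rw [← aeval_def]
      simp only [map_add, map_mul, map_pow, aeval_X, eq_intCast, map_neg, map_ofNat,
        map_intCast]
      linear_combination hx
  obtain ⟨z, hz⟩ := IsIntegrallyClosed.isIntegral_iff.1 hint
  rw [algebraMap_int_eq, eq_intCast] at hz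
  subst hz
  exact h z (by exact_mod_cast hx)

end Fermat.Agent.Row42
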