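import Fermat.Agent.HeckeEigen.QCoeff
import Fermat.Prelude.Thm_CuspFormClass_isZeroAt_heckeT
import Mathlib.NumberTheory.ModularForms.Basic

/-!
# The degeneracy maps on cusp forms, on `q`-expansions

`dilate d : S₂(Γ₀(N)) → S₂(Γ₀(M))`, `f ↦ f(dτ)`, for `d N ∣ M`; stripping a prime from the
`q`-expansion.
-/

set_option autoImplicit false

noncomputable section

open UpperHalfPlane CongruenceSubgroup Matrix.SpecialLinearGroup
open scoped MatrixGroups ModularForm

namespace Fermat.Agent.Row42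

variable {N M d : ℕ}

/-- Conjugation by `diag(d, 1)` carries `Γ₀(M)` into `Γ₀(N)`. -/
theorem exists_diag_conj (hd : d ≠ 0) (h : d * N ∣ M) {γ : SL(2, ℤ)} (hγ : γ ∈ Gamma0 M) :
    ∃ g ∈ Gamma0 N, ModularForm.heckeDiagMatrix d * mapGL ℝ γ =
      mapGL ℝ g * ModularForm.heckeDiagMatrix d := by
  rw [Gamma0_mem, ZMod.intCast_zmod_eq_zero_iff_dvd] at hγ
  obtain ⟨z, hz⟩ : ((d * N : ℕ) : ℤ) ∣ γ 1 0 := (Int.natCast_dvd_natCast.2 h).trans hγ
  push_cast at hz
  have hdet := γ.2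
  rw [Matrix.det_fin_two] at hdet
  let g : SL(2, ℤ) := ⟨!![γ 0 0, (d : ℤ) * γ 0 1; (N : ℤ) * z, γ 1 1], by
    rw [Matrix.det_fin_two_of]; linear_combination hdet + γ 0 1 * hz⟩
  refine ⟨g, Gamma0_mem.2 ?_, ?_⟩
  · rw [ZMod.intCast_zmod_eq_zero_iff_dvd]
    exact ⟨z, rfl⟩
  · refine Units.ext ?_
    have hd' : (d : ℝ) ≠ 0 := by exact_mod_cast hd
    have hz' : ((γ 1 0 : ℤ) : ℝ) = (d : ℝ) * N * z := by exact_mod_cast hz
    ext i j
    simp only [Matrix.GeneralLinearGroup.coe_mul, ModularForm.val_heckeDiagMatrix hd,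
      mapGL_coe_matrix, Matrix.SpecialLinearGroup.map_apply_coe, RingHom.mapMatrix_apply,
      Matrix.map_apply, Matrix.mul_apply, Fin.sum_univ_two]
    fin_cases i <;> fin_cases j <;> simp [g, hz'] <;> ring

/-- Cusp forms of level `Γ₀(N)` slashed by `diag(d, 1)`, of level `Γ₀(M)` for `d N ∣ M`. -/
def slashDiag [NeZero N] [NeZero M] (hd : d ≠ 0) (h : d * N ∣ M) (f : CuspForm (Gamma0 N) 2) :
    CuspForm (Gamma0 M) 2 where
  toFun := ⇑f ∣[(2 : ℤ)] ModularForm.heckeDiagMatrix d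
  slash_action_eq' := by
    rintro γ ⟨γ', hγ', rfl⟩
    obtain ⟨g, hg, e⟩ := exists_diag_conj hd h hγ'
    rw [← SlashAction.slash_mul, e, SlashAction.slash_mul,
      SlashInvariantFormClass.slash_action_eq f _ (Subgroup.mem_map_of_mem _ hg)]
  holo' := (CuspFormClass.holo f).slash 2 _
  zero_at_cusps' {c} hc := by
    obtain ⟨g, hg⟩ :=
      _root_.P2MW.S_CuspFormClass_isZeroAt_heckeT.ModularForm.S06W2.exists_heckeDiagMatrix_eq_map d
    rw [hg]
    refine _root_.P2MW.S_CuspFormClass_isZeroAt_heckeT.ModularForm.S06W2.isZeroAt_slash_ratCast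
      f g ?_
    rw [Subgroup.IsArithmetic.isCusp_iff_isCusp_SL2Z] at hc ⊢
    exact hc

/-- `f ↦ f(dτ)`. -/
def dilate [NeZero N] [NeZero M] (hd : d ≠ 0) (h : d * N ∣ M) (f : CuspForm (Gamma0 N) 2) :
    CuspForm (Gamma0 M) 2 :=
  (d : ℂ)⁻¹ • slashDiag hd h f

theorem dilate_apply [NeZero N] [NeZero M] (hd : d ≠ 0) (h : d * N ∣ M)
    (f : CuspForm (Gamma0 N) 2) (τ : ℍ) :
    dilate hd h f τ = f (ModularForm.heckeDiagMatrix d • τ) := by
  rw [dilate, smul_apply, smul_eq_mul]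
  show (d : ℂ)⁻¹ * (⇑f ∣[(2 : ℤ)] ModularForm.heckeDiagMatrix d) τ = _
  rw [ModularForm.slash_heckeDiagMatrix_apply 2 hd, show (2 : ℤ) - 1 = 1 from rfl, zpow_one,
    ← mul_assoc, inv_mul_cancel₀ (by exact_mod_cast hd), one_mul]

/-- The `q`-expansion of `f(dτ)`. -/
theorem qCoeff_dilate [NeZero N] [NeZero M] (hd : d ≠ 0) (h : d * N ∣ M)
    (f : CuspForm (Gamma0 N) 2) (n : ℕ) :
    ModularFormClass.qCoeff (dilate hd h f) n =
      if d ∣ n then ModularFormClass.qCoeff f (n / d) else 0 := by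
  classical
  refine (ModularFormClass.qExpansion_coeff_unique (c := fun n =>
    if d ∣ n then ModularFormClass.qCoeff f (n / d) else 0) one_pos
    (one_mem_strictPeriods_Gamma0 M) (fun τ => ?_) n).symm
  have hinj : Function.Injective fun m : ℕ => d * m := mul_right_injective₀ hd
  have : Fact (IsCusp OnePoint.infty (Subgroup.map (mapGL ℝ) (Gamma0 N))) :=
    ⟨Subgroup.isCusp_of_mem_strictPeriods one_pos (one_mem_strictPeriods_Gamma0 N)⟩
  have hf := ModularForm.hasSum_qExpansion f one_pos (one_mem_strictPeriods_Gamma0 N)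
    (ModularForm.heckeDiagMatrix d • τ)
  rw [dilate_apply]
  refine (hinj.hasSum_iff fun m hm => ?_).1 (hf.congr_fun fun m => ?_)
  · rw [if_neg fun hdm => hm ⟨m / d, Nat.mul_div_cancel' hdm⟩, zero_smul]
  · simp only [Function.comp_apply, dvd_mul_right, if_true,
      Nat.mul_div_cancel_left _ (Nat.pos_of_ne_zero hd)]
    rw [smul_eq_mul]
    congr 1
    rw [ModularForm.coe_heckeDiagMatrix_smul hd, pow_mul]
    congr 1
    simp only [Function.Periodic.qParam, ← Complex.exp_nat_mul]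
    congr 1
    push_cast
    ring

/-- Removing the coefficients at multiples of a prime: level `M` to level `q M` for `q ∣ M`. -/
theorem exists_strip [NeZero N] [NeZero M] {q : ℕ} (hq : q ≠ 0) (hqN : q ∣ N) (h : q * N ∣ M)
    (f : CuspForm (Gamma0 N) 2) :
    ∃ g : CuspForm (Gamma0 M) 2, ∀ n, ModularFormClass.qCoeff g n =
      if q ∣ n then 0 else ModularFormClass.qCoeff f n := by
  refine ⟨dilate one_ne_zero (by rw [one_mul]; exact (dvd_mul_left N q).trans h) f -
    dilate hq h (CuspForm.heckeULin 2 hqN f), fun n => ?_⟩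
  rw [← HeckeEigen.qCoeffLin_apply, map_sub, HeckeEigen.qCoeffLin_apply,
    HeckeEigen.qCoeffLin_apply, qCoeff_dilate, qCoeff_dilate, if_pos (one_dvd n), Nat.div_one]
  split_ifs with hn
  · rw [HeckeEigen.qCoeff_heckeULin hq, Nat.div_mul_cancel hn, sub_self]
  · rw [sub_zero]

/-- Removing the coefficients at the primes of a divisor `b` of the level, at level `b` times
the level. -/
theorem exists_strip_dvd {K : ℕ} [NeZero K] : ∀ (b : ℕ) [NeZero b], b ∣ K →
    ∀ g : CuspForm (Gamma0 K) 2, ∃ g' : CuspForm (Gamma0 (K * b)) 2,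
      ∀ n, ModularFormClass.qCoeff g' n =
        if n.Coprime b then ModularFormClass.qCoeff g n else 0 := by
  intro b
  induction b using Nat.recOnMul generalizing K with
  | zero => intro hz; exact absurd rfl hz.out
  | one =>
    intro _ _ g
    rw [mul_one]
    exact ⟨g, fun n => by rw [if_pos (Nat.coprime_one_right n)]⟩
  | prime q hq =>
    intro _ hqK g
    obtain ⟨g', hg⟩ := exists_strip (M := K * q) hq.ne_zero hqK (by rw [mul_comm]) g
    refine ⟨g', fun n => ?_⟩
    rw [hg n]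
    by_cases hn : q ∣ n
    · rw [if_pos hn, if_neg fun hc => hq.not_dvd_one (Nat.Coprime.gcd_eq_one hc ▸
        Nat.dvd_gcd hn dvd_rfl)]
    · rw [if_neg hn, if_pos ((hq.coprime_iff_not_dvd.2 hn).symm)]
  | mul a b iha ihb =>
    intro hne hab g
    have ha0 : NeZero a := ⟨fun h => hne.out (by rw [h, zero_mul])⟩
    have hb0 : NeZero b := ⟨fun h => hne.out (by rw [h, mul_zero])⟩
    obtain ⟨g₁, h₁⟩ := iha ((dvd_mul_right a b).trans hab) g
    obtain ⟨g₂, h₂⟩ := ihb (((dvd_mul_left b a).trans hab).trans (dvd_mul_right K a)) g₁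
    have e : K * a * b = K * (a * b) := mul_assoc _ _ _
    rw [← e]
    refine ⟨g₂, fun n => ?_⟩
    rw [h₂ n, h₁ n]
    by_cases hc' : n.Coprime b
    · rw [if_pos hc']
      by_cases hc : n.Coprime a
      · rw [if_pos hc, if_pos (hc.mul_right hc')]
      · rw [if_neg hc, if_neg fun h => hc (Nat.coprime_mul_iff_right.1 h).1]
    · rw [if_neg hc', if_neg fun h => hc' (Nat.coprime_mul_iff_right.1 h).2]

end Fermat.Agent.Row42
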