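import Fermat.Agent.Row42.CubicLine
import Fermat.Agent.Row42.Galois

/-!
# Semistable members of the three-torsion family with prescribed local behaviour
-/

set_option autoImplicit false

namespace Fermat.Agent.Row42

open WeierstrassCurve

/-- A semistable model has non-zero `c₄`. -/
theorem c₄_ne_zero {W : WeierstrassCurve ℤ} (hW : W.IsSemistableModel) : W.c₄ ≠ 0 := by
  intro h0
  have h1 : W.Δ.natAbs = 1 := Nat.eq_one_iff_not_exists_prime_dvd.2 fun q hq hd =>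
    hW q hq (Int.natCast_dvd.2 hd) (h0 ▸ dvd_zero _)
  have e : W.c₆.natAbs * W.c₆.natAbs = 1728 := by
    have h := congrArg Int.natAbs W.c_relation
    simpa [h0, Int.natAbs_mul, h1, pow_two] using h.symm
  have hlt : W.c₆.natAbs < 42 := by nlinarith
  generalize W.c₆.natAbs = n at e hlt
  interval_cases n <;> omega

/-- A pair with no common prime factor in `M` lifts to a coprime pair. -/
theorem exists_coprime_lift (M : ℕ) (hM : M ≠ 0) (u₀ v₀ : ℤ)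
    (h : ∀ q : ℕ, q.Prime → q ∣ M → ¬((q : ℤ) ∣ u₀ ∧ (q : ℤ) ∣ v₀)) :
    ∃ u v : ℤ, IsCoprime u v ∧ u ≠ 0 ∧ v ≠ 0 ∧ (M : ℤ) ∣ u - u₀ ∧ (M : ℤ) ∣ v - v₀ := by
  classical
  set v : ℤ := v₀ + M * (|v₀| + 2) with hv
  have hM1 : (1 : ℤ) ≤ M := by exact_mod_cast Nat.one_le_iff_ne_zero.2 hM
  have hv2 : 2 ≤ v := by
    have h1 : (1 : ℤ) * (|v₀| + 2) ≤ M * (|v₀| + 2) :=
      mul_le_mul_of_nonneg_right hM1 (by positivity)
    have := neg_abs_le v₀
    omega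
  set S := v.natAbs.primeFactors.filter (fun q : ℕ => ¬ q ∣ M ∧ ¬((q : ℤ) ∣ u₀)) with hS
  set u : ℤ := u₀ + M * ((∏ q ∈ S, q : ℕ) : ℤ) with hu
  have hcop : IsCoprime u v := by
    rw [Int.isCoprime_iff_gcd_eq_one]
    by_contra hne
    obtain ⟨q, hq, hqd⟩ := Nat.exists_prime_and_dvd hne
    have hqu : (q : ℤ) ∣ u := (Int.natCast_dvd_natCast.2 hqd).trans (Int.gcd_dvd_left u v)
    have hqv : (q : ℤ) ∣ v := (Int.natCast_dvd_natCast.2 hqd).trans (Int.gcd_dvd_right u v)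
    have hqp : Prime (q : ℤ) := Nat.prime_iff_prime_int.1 hq
    have hqvN : q ∣ v.natAbs := Int.natCast_dvd.1 hqv
    have hsub : (q : ℤ) ∣ M * ((∏ r ∈ S, r : ℕ) : ℤ) ↔ q ∣ M ∨ q ∈ S := by
      constructor
      · intro hd
        rcases hqp.dvd_or_dvd hd with hd | hd
        · exact Or.inl (Int.natCast_dvd_natCast.1 hd)
        · obtain ⟨r, hr, hqr⟩ := hq.prime.exists_mem_finset_dvd (Int.natCast_dvd_natCast.1 hd)
          have hrp := Nat.prime_of_mem_primeFactors (Finset.mem_filter.1 hr).1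
          rw [(Nat.prime_dvd_prime_iff_eq hq hrp).1 hqr]
          exact Or.inr hr
      · rintro (hd | hd)
        · exact (Int.natCast_dvd_natCast.2 hd).mul_right _
        · exact (Int.natCast_dvd_natCast.2 (Finset.dvd_prod_of_mem _ hd)).mul_left _
    by_cases hqM : q ∣ M
    · refine h q hq hqM ⟨?_, ?_⟩
      · exact (dvd_add_left (hsub.2 (Or.inl hqM))).1 hqu
      · exact (dvd_add_left ((Int.natCast_dvd_natCast.2 hqM).mul_right _)).1 hqv
    · by_cases hq0 : (q : ℤ) ∣ u₀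
      · rcases hsub.1 ((dvd_add_right hq0).1 hqu) with h' | h'
        · exact hqM h'
        · exact (Finset.mem_filter.1 h').2.2 hq0
      · exact hq0 ((dvd_add_left (hsub.2 (Or.inr (Finset.mem_filter.2
          ⟨Nat.mem_primeFactors.2 ⟨hq, hqvN, by omega⟩, hqM, hq0⟩)))).1 hqu)
  refine ⟨u, v, hcop, fun hu0 => ?_, by omega, ⟨_, add_sub_cancel_left _ _⟩,
    ⟨_, add_sub_cancel_left _ _⟩⟩
  rw [hu0, isCoprime_zero_left, Int.isUnit_iff] at hcop
  omega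

/-- The forms at congruent parameters are congruent. -/
theorem forms_sub_dvd {R : ℤ} (a b : ℤ) {u v u' v' : ℤ} (hu : R ∣ u' - u) (hv : R ∣ v' - v) :
    R ∣ cFour a b u' v' - cFour a b u v ∧ R ∣ cSix a b u' v' - cSix a b u v ∧
      R ∣ cusp a b u' v' - cusp a b u v := by
  rw [← Ideal.mem_span_singleton, ← Ideal.Quotient.eq] at hu hv
  simp only [← Ideal.mem_span_singleton, ← Ideal.Quotient.eq, map_cFour, map_cSix, map_cusp, hu,
    hv, and_self]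

/-- The cusp form has any sign far out on the two axes. -/
theorem exists_sign_bound (a b c : ℤ) (ha : a ≠ 0) :
    ∃ C : ℤ, ∀ x : ℤ, C ≤ x → 0 < x ∧ 0 < cusp a b x c ∧ cusp a b c x < 0 := by
  refine ⟨6 * |a| * c ^ 2 + 8 * |b| * |c| ^ 3 + 3 * a ^ 2 * c ^ 4 + c ^ 4 + 8 * |b| * |c| + 1,
    fun x hx => ?_⟩
  have h1 : (0 : ℤ) ≤ 6 * |a| * c ^ 2 := by positivity
  have h2 : (0 : ℤ) ≤ 8 * |b| * |c| ^ 3 := by positivity
  have h3 : (0 : ℤ) ≤ 3 * a ^ 2 * c ^ 4 := by positivity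
  have h4 : (0 : ℤ) ≤ c ^ 4 := by positivity
  have h5 : (0 : ℤ) ≤ 8 * |b| * |c| := by positivity
  have hx1 : 1 ≤ x := by linarith
  have ha2 : (1 : ℤ) ≤ a ^ 2 := by
    have : (1 : ℤ) ≤ |a| := Int.one_le_abs ha
    rw [← sq_abs]; nlinarith
  have hx2 : x ≤ x ^ 2 := by nlinarith
  have hx3 : x ^ 2 ≤ x ^ 3 := by nlinarith
  have e1 : 6 * a * c ^ 2 * x ^ 2 ≤ 6 * |a| * c ^ 2 * x ^ 3 :=
    calc 6 * a * c ^ 2 * x ^ 2 ≤ 6 * |a| * c ^ 2 * x ^ 2 := by gcongr; exact le_abs_self a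
      _ ≤ 6 * |a| * c ^ 2 * x ^ 3 := by gcongr
  have e1' : -(6 * a * c ^ 2 * x ^ 2) ≤ 6 * |a| * c ^ 2 * x ^ 3 :=
    calc -(6 * a * c ^ 2 * x ^ 2) = 6 * (-a) * c ^ 2 * x ^ 2 := by ring
      _ ≤ 6 * |a| * c ^ 2 * x ^ 2 := by gcongr; exact neg_le_abs a
      _ ≤ 6 * |a| * c ^ 2 * x ^ 3 := by gcongr
  have e2 : 8 * b * x * c ^ 3 ≤ 8 * |b| * |c| ^ 3 * x ^ 3 :=
    calc 8 * b * x * c ^ 3 ≤ |8 * b * x * c ^ 3| := le_abs_self _
      _ = 8 * |b| * |c| ^ 3 * x := by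
        rw [abs_mul, abs_mul, abs_mul, abs_pow, abs_of_pos (show (0 : ℤ) < x by linarith),
          show |(8 : ℤ)| = 8 by norm_num]
        ring
      _ ≤ 8 * |b| * |c| ^ 3 * x ^ 3 := by gcongr; linarith
  have e2' : -(8 * b * c * x ^ 3) ≤ 8 * |b| * |c| * x ^ 3 :=
    calc -(8 * b * c * x ^ 3) ≤ |8 * b * c * x ^ 3| := neg_le_abs _
      _ = 8 * |b| * |c| * x ^ 3 := by
        rw [abs_mul, abs_mul, abs_mul, abs_pow, abs_of_pos (show (0 : ℤ) < x by linarith),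
          show |(8 : ℤ)| = 8 by norm_num]
  have h6 : (1 : ℤ) ≤ x ^ 3 := by linarith
  have e3 : 3 * a ^ 2 * c ^ 4 ≤ 3 * a ^ 2 * c ^ 4 * x ^ 3 := le_mul_of_one_le_right h3 h6
  have e4 : c ^ 4 ≤ c ^ 4 * x ^ 3 := le_mul_of_one_le_right h4 h6
  have hmul := mul_le_mul_of_nonneg_right hx (show (0 : ℤ) ≤ x ^ 3 by linarith)
  have e5 : x ^ 4 ≤ 3 * a ^ 2 * x ^ 4 :=
    le_mul_of_one_le_left (by positivity) (by linarith)
  refine ⟨by linarith, ?_, ?_⟩
  · simp only [cusp]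
    nlinarith [mul_nonneg h4 (show (0 : ℤ) ≤ x ^ 3 by linarith),
      mul_nonneg h5 (show (0 : ℤ) ≤ x ^ 3 by linarith)]
  · simp only [cusp]
    nlinarith [mul_nonneg h2 (show (0 : ℤ) ≤ x ^ 3 by linarith),
      mul_nonneg h3 (show (0 : ℤ) ≤ x ^ 3 by linarith)]

/-- Far out on a suitable line: coprime parameters, the wanted sign, no root of the cubic. -/
theorem exists_parameter {a b : ℤ} (h : a ^ 3 ≠ b ^ 2) (ha : a ≠ 0) {R : ℕ} (hR : R ≠ 0)
    {u₁ v₁ : ℤ} (hc : IsCoprime u₁ v₁) (hu : u₁ ≠ 0) (hv : v₁ ≠ 0) (pos : Prop) [Decidable pos] :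
    ∃ u v : ℤ, IsCoprime u v ∧ u ≠ 0 ∧ (R : ℤ) ∣ u - u₁ ∧ (R : ℤ) ∣ v - v₁ ∧
      (if pos then 0 < cusp a b u v else cusp a b u v < 0) ∧
      ∀ z : ℤ, z ^ 3 + (-27 * cFour a b u v) * z + (-54 * cSix a b u v) ≠ 0 := by
  have hR1 : (1 : ℤ) ≤ R := by exact_mod_cast Nat.one_le_iff_ne_zero.2 hR
  have far : ∀ (C w₁ w₂ : ℤ), w₂ ≠ 0 → ∀ k : ℕ, (C - w₁).toNat ≤ k →
      C ≤ w₁ + k * (R * |w₂|) := by
    intro C w₁ w₂ hw k hk
    have : (k : ℤ) * 1 ≤ k * (R * |w₂|) := mul_le_mul_of_nonneg_left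
      (one_le_mul_of_one_le_of_one_le hR1 (Int.one_le_abs hw)) (Int.natCast_nonneg k)
    omega
  by_cases hp : pos
  · simp only [if_pos hp]
    obtain ⟨C, hC⟩ := exists_sign_bound a b v₁ ha
    have hΛ : (R : ℤ) * |v₁| ≠ 0 :=
      mul_ne_zero (by exact_mod_cast hR) (abs_ne_zero.2 hv)
    obtain ⟨k, hk, hroot⟩ := exists_no_int_root h (R * |v₁|) 0 u₁ v₁
      (by simpa using mul_ne_zero hΛ hv) (by simp [cusp, hR, hv]) (C - u₁).toNat
    obtain ⟨hpos, hD, -⟩ := hC _ (far C u₁ v₁ hv k hk)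
    refine ⟨u₁ + k * (R * |v₁|), v₁, ?_, hpos.ne', Dvd.intro (k * |v₁|) (by ring), by simp, hD,
      by simpa using hroot⟩
    obtain ⟨e, he⟩ := (dvd_abs v₁ v₁).2 dvd_rfl
    rw [show u₁ + k * (R * |v₁|) = u₁ + v₁ * (k * R * e) by rw [he]; ring]
    exact hc.add_mul_left_left _
  · simp only [if_neg hp]
    obtain ⟨C, hC⟩ := exists_sign_bound a b u₁ ha
    have hΛ : (R : ℤ) * |u₁| ≠ 0 :=
      mul_ne_zero (by exact_mod_cast hR) (abs_ne_zero.2 hu)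
    obtain ⟨k, hk, hroot⟩ := exists_no_int_root h 0 (R * |u₁|) u₁ v₁
      (by simpa using mul_ne_zero hΛ hu) (by simp [cusp, hR, hu, ha]) (C - v₁).toNat
    obtain ⟨-, -, hD⟩ := hC _ (far C v₁ u₁ hu k hk)
    refine ⟨u₁, v₁ + k * (R * |u₁|), ?_, hu, by simp, Dvd.intro (k * |u₁|) (by ring), hD,
      by simpa using hroot⟩
    obtain ⟨e, he⟩ := (dvd_abs u₁ u₁).2 dvd_rfl
    rw [show v₁ + k * (R * |u₁|) = v₁ + u₁ * (k * R * e) by rw [he]; ring]
    exact hc.add_mul_left_right _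

/-- **Members of the three-torsion family.** -/
theorem memberLemma : MemberLemma := by
  intro W hΔ hW V e M u₀ v₀ σ hσ hM hsupp hprim h4 h6 hV hloc
  set a := W.c₄ with ha
  set b := W.c₆ with hb
  have hrel : a ^ 3 - b ^ 2 = 1728 * W.Δ := W.c_relation.symm
  have hab : a ^ 3 ≠ b ^ 2 := sub_ne_zero.1 (hrel ▸ mul_ne_zero (by norm_num) hΔ)
  obtain ⟨u₁, v₁, hc1, hu1, hv1, hMu1, hMv1⟩ := exists_coprime_lift (M * (2 ^ (6 * e) * 41472))
    (mul_ne_zero hM (mul_ne_zero (pow_ne_zero _ two_ne_zero) (by norm_num))) u₀ v₀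
    (fun q hq hd => hprim q hq (by
      rcases hq.dvd_mul.1 hd with hd | hd
      · exact hd
      · have h23 : q = 2 ∨ q = 3 := by
          rcases hq.dvd_mul.1 hd with hd | hd
          · exact Or.inl ((Nat.prime_dvd_prime_iff_eq hq Nat.prime_two).1 (hq.dvd_of_dvd_pow hd))
          · rcases hq.dvd_mul.1 (show q ∣ 2 ^ 9 * 3 ^ 4 from hd) with hd | hd
            · exact Or.inl ((Nat.prime_dvd_prime_iff_eq hq Nat.prime_two).1 (hq.dvd_of_dvd_pow hd))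
            · exact Or.inr
                ((Nat.prime_dvd_prime_iff_eq hq Nat.prime_three).1 (hq.dvd_of_dvd_pow hd))
        refine hsupp q hq ?_
        rcases h23 with rfl | rfl <;> exact dvd_mul_of_dvd_left (by norm_num) _))
  obtain ⟨u, v, hcuv, hu0, hRu, hRv, hsign, hroot⟩ := exists_parameter (b := b) hab
    (c₄_ne_zero hW) (R := M * (2 ^ (6 * e) * 41472))
    (mul_ne_zero hM (mul_ne_zero (pow_ne_zero _ two_ne_zero) (by norm_num))) hc1 hu1 hv1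
    (0 < σ * W.Δ)
  set R : ℤ := ((M * (2 ^ (6 * e) * 41472) : ℕ) : ℤ) with hR
  have hu : R ∣ u - u₀ := by simpa using dvd_add hRu hMu1
  have hv : R ∣ v - v₀ := by simpa using dvd_add hRv hMv1
  obtain ⟨d4, d6, dD⟩ := forms_sub_dvd a b hu hv
  have hRe : R = (M : ℤ) * (2 ^ (6 * e) * 41472) := by rw [hR]; push_cast; ring
  obtain ⟨x, hx⟩ : (2 : ℤ) ^ (4 * e) * 41472 ∣ cFour a b u v - 2 ^ (4 * e) * V.c₄ := by
    have : (2 : ℤ) ^ (4 * e) * 41472 ∣ R :=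
      Dvd.intro ((M : ℤ) * 2 ^ (2 * e)) (by
        rw [hRe, show 6 * e = 4 * e + 2 * e by ring, pow_add]; ring)
    simpa using dvd_add (this.trans d4) h4
  obtain ⟨y, hy⟩ : (2 : ℤ) ^ (6 * e) * 5184 ∣ cSix a b u v - 2 ^ (6 * e) * V.c₆ := by
    have : (2 : ℤ) ^ (6 * e) * 5184 ∣ R := Dvd.intro ((M : ℤ) * 8) (by rw [hRe]; ring)
    simpa using dvd_add (this.trans d6) h6
  set W' : WeierstrassCurve ℤ :=
    ⟨V.a₁, V.a₂, V.a₃, V.a₄ - 864 * x, V.a₆ + (-72 * V.b₂ * x - 6 * y)⟩ with hW'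
  have e4 : cFour a b u v = 2 ^ (4 * e) * W'.c₄ := by
    simp only [hW', WeierstrassCurve.c₄, WeierstrassCurve.b₂, WeierstrassCurve.b₄] at hx ⊢
    linear_combination hx
  have e6 : cSix a b u v = 2 ^ (6 * e) * W'.c₆ := by
    simp only [hW', WeierstrassCurve.c₆, WeierstrassCurve.b₂, WeierstrassCurve.b₄,
      WeierstrassCurve.b₆] at hy ⊢
    linear_combination hy
  have eΔ : 2 ^ (12 * e) * W'.Δ = W.Δ * cusp a b u v ^ 3 := by
    refine mul_left_cancel₀ (show (1728 : ℤ) ≠ 0 by norm_num) ?_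
    rw [← mul_assoc, ← mul_assoc, ← hrel, ← cFour_cube_sub_cSix_sq a b u v, e4, e6,
      show (2 : ℤ) ^ (12 * e) = (2 ^ (4 * e)) ^ 3 by rw [← pow_mul]; ring_nf,
      mul_right_comm, W'.c_relation,
      show (2 : ℤ) ^ (6 * e) = 2 ^ (2 * e) * 2 ^ (4 * e) by rw [← pow_add]; ring_nf,
      show (2 : ℤ) ^ (4 * e) = (2 ^ (2 * e)) ^ 2 by rw [← pow_mul]; ring_nf]
    ring
  have hsgn : 0 < σ * W'.Δ := by
    have hΔσ : σ * W.Δ ≠ 0 := mul_ne_zero hσ hΔ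
    have hpos : 0 < (2 : ℤ) ^ (12 * e) := by positivity
    refine pos_of_mul_pos_right ?_ hpos.le
    rw [show (2 : ℤ) ^ (12 * e) * (σ * W'.Δ) = (σ * W.Δ) * cusp a b u v ^ 3 by
      linear_combination σ * eΔ]
    split_ifs at hsign with hp
    · exact mul_pos hp (pow_pos hsign 3)
    · exact mul_pos_of_neg_of_neg (lt_of_le_of_ne (le_of_not_gt hp) hΔσ)
        (Odd.pow_neg (by decide) hsign)
  have hΔ' : W'.Δ ≠ 0 := fun h0 => by simp [h0] at hsgn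
  have hred : ∀ q : ℕ, (q : ℤ) ∣ 6 → W'.reductionMod q = V.reductionMod q := by
    intro q hq
    have z6 : ((6 : ℤ) : ZMod q) = 0 := (ZMod.intCast_zmod_eq_zero_iff_dvd _ _).2 hq
    push_cast at z6
    have z864 : (864 : ZMod q) = 0 := by linear_combination (144 : ZMod q) * z6
    have z72 : (72 : ZMod q) = 0 := by linear_combination (12 : ZMod q) * z6
    ext <;> simp [WeierstrassCurve.reductionMod, hW', z6, z864, z72]
  refine ⟨W', u, v, hΔ', hsgn, fun q hq hqΔ hqc => ?_, hcuv,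
    (Dvd.intro _ hRe.symm).trans hu, (Dvd.intro _ hRe.symm).trans hv, e4, e6, eΔ,
    ⟨hred 2 (by norm_num), hred 3 (by norm_num)⟩, ?_,
    congr_of_member (s := 2 ^ e) hΔ hΔ' hu0 (pow_ne_zero _ two_ne_zero)
      (by rw [← pow_mul, mul_comm e 4]; exact e4) (by rw [← pow_mul, mul_comm e 6]; exact e6)⟩
  · have hqp : Prime (q : ℤ) := Nat.prime_iff_prime_int.1 hq
    by_cases h23 : q = 2 ∨ q = 3
    · have hmap := hred q (by rcases h23 with rfl | rfl <;> norm_num)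
      simp only [WeierstrassCurve.reductionMod] at hmap
      refine hV q h23 ?_ ?_
      · rw [← ZMod.intCast_zmod_eq_zero_iff_dvd] at hqΔ ⊢
        have h := congrArg (fun E => WeierstrassCurve.Δ E) hmap
        simp only [map_Δ, eq_intCast] at h
        rw [← h, hqΔ]
      · rw [← ZMod.intCast_zmod_eq_zero_iff_dvd] at hqc ⊢
        have h := congrArg (fun E => WeierstrassCurve.c₄ E) hmap
        simp only [map_c₄, eq_intCast] at h
        rw [← h, hqc]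
    have hq2 : q ≠ 2 := fun h => h23 (Or.inl h)
    have hq3 : q ≠ 3 := fun h => h23 (Or.inr h)
    have hq4 : (q : ℤ) ∣ cFour a b u v := e4 ▸ hqc.mul_left _
    have hqD : (q : ℤ) ∣ W.Δ * cusp a b u v := by
      have h3 : (q : ℤ) ∣ W.Δ * cusp a b u v ^ 3 := eΔ ▸ hqΔ.mul_left _
      rcases hqp.dvd_or_dvd h3 with h | h
      · exact h.mul_right _
      · exact (hqp.dvd_of_dvd_pow h).mul_left _
    by_cases hqM : q ∣ M
    · have hqR : (q : ℤ) ∣ R := (Int.natCast_dvd_natCast.2 hqM).trans (Dvd.intro _ hRe.symm)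
      refine hloc q hq hqM hq2 hq3 ⟨?_, ?_⟩
      · simpa [mul_sub] using dvd_sub hqD ((hqR.trans dD).mul_left W.Δ)
      · simpa using dvd_sub hq4 (hqR.trans d4)
    · have hq6 : ¬(q : ℤ) ∣ 6 * W.Δ := fun h => hqM (hsupp q hq h)
      have hqc' : (q : ℤ) ∣ cusp a b u v :=
        (hqp.dvd_or_dvd hqD).resolve_left fun h => hq6 (h.mul_left 6)
      have hq36 : ¬(q : ℤ) ∣ 36 * (a ^ 3 - b ^ 2) ^ 2 := by
        rw [hrel, show (36 : ℤ) * (1728 * W.Δ) ^ 2 = 2 ^ 14 * 3 ^ 8 * W.Δ ^ 2 by ring]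
        intro h
        rcases hqp.dvd_or_dvd h with h | h
        · have h' : (q : ℤ) ∣ 2 ^ 14 * 3 ^ 8 := h
          rcases hqp.dvd_or_dvd h' with h | h
          · exact hq2 ((Nat.prime_dvd_prime_iff_eq hq Nat.prime_two).1
              (Int.natCast_dvd_natCast.1 (hqp.dvd_of_dvd_pow h)))
          · exact hq3 ((Nat.prime_dvd_prime_iff_eq hq Nat.prime_three).1
              (Int.natCast_dvd_natCast.1 (hqp.dvd_of_dvd_pow h)))
        · exact hq6 ((hqp.dvd_of_dvd_pow h).mul_left 6)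
      have hqu : (q : ℤ) ∣ u := hqp.dvd_of_dvd_pow ((hqp.dvd_or_dvd
        (bezout_left a b u v ▸ dvd_add (hq4.mul_left _) (hqc'.mul_left _))).resolve_left hq36)
      have hqv : (q : ℤ) ∣ v := hqp.dvd_of_dvd_pow ((hqp.dvd_or_dvd
        (bezout_right a b u v ▸ dvd_add (hq4.mul_left _) (hqc'.mul_left _))).resolve_left hq36)
      exact hqp.not_isUnit (hcuv.isUnit_of_dvd' hqu hqv)
  · refine noRoot_of_no_int_root fun z hz => hroot (2 ^ (2 * e) * z) ?_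
    rw [e4, e6, show (2 : ℤ) ^ (6 * e) = (2 ^ (2 * e)) ^ 3 by rw [← pow_mul]; ring_nf,
      show (2 : ℤ) ^ (4 * e) = (2 ^ (2 * e)) ^ 2 by rw [← pow_mul]; ring_nf]
    linear_combination ((2 : ℤ) ^ (2 * e)) ^ 3 * hz

end Fermat.Agent.Row42
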