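import Fermat.Agent.Row42.Forms
import Mathlib.Algebra.Field.Basic
import Mathlib.Algebra.CharZero.Defs
import Mathlib.Tactic.LinearCombination

/-!
# The forms of the family along the Hesse pencil

`Ht, Tt` are the invariants of the Hesse pencil; along the line `r + t • (wA r, wB r)` they
restrict to `cFour, cSix`. Also the Bézout relations of `cFour` and `cusp`.
-/

set_option autoImplicit false

namespace Fermat.Agent.Row42

variable {R : Type*} [CommRing R]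

@[simp] lemma cFour_one_zero (c4 c6 : R) : cFour c4 c6 1 0 = c4 := by simp [cFour]

@[simp] lemma cSix_one_zero (c4 c6 : R) : cSix c4 c6 1 0 = c6 := by simp [cSix]

lemma bezout_left (a b x y : R) :
    ((-17 * a ^ 2 * b ^ 2 + 18 * a ^ 5) * x ^ 3 + (32 * a * b ^ 3 - 33 * a ^ 4 * b) * x ^ 2 * y
      + (64 * b ^ 4 - 78 * a ^ 3 * b ^ 2 + 9 * a ^ 6) * x * y ^ 2
      + (24 * a ^ 2 * b ^ 3 - 27 * a ^ 5 * b) * y ^ 3) * cFour a b x y
    + ((36 * b ^ 4 - 55 * a ^ 3 * b ^ 2 + 18 * a ^ 6) * x ^ 3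
      + (36 * a ^ 2 * b ^ 3 - 39 * a ^ 5 * b) * x ^ 2 * y
      + (24 * a * b ^ 4 - 18 * a ^ 4 * b ^ 2 - 9 * a ^ 7) * x * y ^ 2
      + (32 * b ^ 5 - 60 * a ^ 3 * b ^ 3 + 27 * a ^ 6 * b) * y ^ 3) * cusp a b x y
    = 36 * (a ^ 3 - b ^ 2) ^ 2 * x ^ 7 := by
  simp only [cFour, cusp]; ring

lemma bezout_right (a b x y : R) :
    (-b * x ^ 3 + a ^ 2 * x ^ 2 * y + 5 * a * b * x * y ^ 2
      + (9 * b ^ 2 - 6 * a ^ 3) * y ^ 3) * cFour a b x y
    + (a * b * x ^ 3 + (4 * b ^ 2 - a ^ 3) * x ^ 2 * y + 3 * a ^ 2 * b * x * y ^ 2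
      + (7 * a * b ^ 2 - 6 * a ^ 4) * y ^ 3) * cusp a b x y
    = 36 * (a ^ 3 - b ^ 2) ^ 2 * y ^ 7 := by
  simp only [cFour, cusp]; ring

/-- The invariant of degree four of the Hesse pencil. -/
def Ht (a b : R) : R := a ^ 4 + 8 * a * b ^ 3

/-- The invariant of degree six of the Hesse pencil. -/
def Tt (a b : R) : R := a ^ 6 - 20 * a ^ 3 * b ^ 3 - 8 * b ^ 6

/-- The cusp form of the Hesse pencil. -/
def ft (a b : R) : R := b * (a ^ 3 - b ^ 3)

/-- First component of the covariant of degree three. -/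
def wA (a b : R) : R := a ^ 3 - 4 * b ^ 3

/-- Second component of the covariant of degree three. -/
def wB (a b : R) : R := -3 * a ^ 2 * b

lemma Ht_cube_sub_Tt_sq (a b : R) : Ht a b ^ 3 - Tt a b ^ 2 = 64 * ft a b ^ 3 := by
  simp only [Ht, Tt, ft]; ring

lemma Ht_line (a b t : R) :
    Ht (a + t * wA a b) (b + t * wB a b) = cFour (Ht a b) (Tt a b) 1 t := by
  simp only [Ht, Tt, wA, wB, cFour]; ring

lemma Tt_line (a b t : R) :
    Tt (a + t * wA a b) (b + t * wB a b) = cSix (Ht a b) (Tt a b) 1 t := by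
  simp only [Ht, Tt, wA, wB, cSix]; ring

variable {S : Type*} [CommRing S] {F : Type*} [FunLike F R S] [RingHomClass F R S] (φ : F)

lemma map_Ht (a b : R) : φ (Ht a b) = Ht (φ a) (φ b) := by simp [Ht, map_ofNat]

lemma map_Tt (a b : R) : φ (Tt a b) = Tt (φ a) (φ b) := by simp [Tt, map_ofNat]

end Fermat.Agent.Row42
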