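import Fermat.Agent.Row42.Pencil
import Fermat.Agent.ThreeFive.ShortModel
import Mathlib.FieldTheory.IsAlgClosed.Basic
import Mathlib.Algebra.Polynomial.Eval.Defs
import Mathlib.Tactic.ComputeDegree

/-!
# Explicit points of order three on the Hesse pencil, and its surjectivity on invariants
-/

set_option autoImplicit false

namespace Fermat.Agent.Row42

open WeierstrassCurve Fermat.Agent.ThreeFive Polynomial

section Explicit

variable {K : Type*} [Field K] [CharZero K] {a b s i : K}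

omit [CharZero K] in
lemma P_equation (hs : s ^ 2 = 3) :
    (12 * s * (a ^ 3 - b ^ 3)) ^ 2 =
      (9 * a ^ 2) ^ 3 - 27 * Ht a b * (9 * a ^ 2) - 54 * Tt a b := by
  simp only [Ht, Tt]; linear_combination (144 * (a ^ 3 - b ^ 3) ^ 2) * hs

omit [CharZero K] in
lemma Q_equation (hi : i ^ 2 = -1) :
    (36 * i * b * (a ^ 2 + a * b + b ^ 2)) ^ 2 =
      (-3 * (a + 2 * b) ^ 2) ^ 3 - 27 * Ht a b * (-3 * (a + 2 * b) ^ 2) - 54 * Tt a b := by
  simp only [Ht, Tt]; linear_combination (1296 * b ^ 2 * (a ^ 2 + a * b + b ^ 2) ^ 2) * hi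

/-- A point whose tangent meets the curve only there has order dividing three. -/
lemma three_smul_mk [DecidableEq K] {c4 c6 x y l : K} (h : c4 ^ 3 ≠ c6 ^ 2)
    (e : y ^ 2 = x ^ 3 - 27 * c4 * x - 54 * c6) (hl : 2 * l * y = 3 * x ^ 2 - 27 * c4)
    (hx : l ^ 2 = 3 * x) : (3 : ℤ) • SW.mk h e = 0 := by
  have e' : (-y) ^ 2 = x ^ 3 - 27 * c4 * x - 54 * c6 := by rw [neg_sq]; exact e
  have h2 := SW.double h e hl (x' := x) (y' := -y) (by linear_combination -hx) (by ring) e'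
  have hn : SW.mk h e' = -SW.mk h e := by simp [SW.mk]
  rw [hn] at h2
  calc (3 : ℤ) • SW.mk h e = (SW.mk h e + SW.mk h e) + SW.mk h e := by abel
    _ = 0 := by rw [h2, neg_add_cancel]

omit [CharZero K] in
lemma P_slope (hs : s ^ 2 = 3) :
    2 * (3 * s * a) * (12 * s * (a ^ 3 - b ^ 3)) = 3 * (9 * a ^ 2) ^ 2 - 27 * Ht a b ∧
      (3 * s * a) ^ 2 = 3 * (9 * a ^ 2) := by
  refine ⟨?_, by linear_combination 9 * a ^ 2 * hs⟩
  simp only [Ht]; linear_combination (72 * a * (a ^ 3 - b ^ 3)) * hs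

omit [CharZero K] in
lemma Q_slope (hi : i ^ 2 = -1) :
    2 * (-3 * i * (a + 2 * b)) * (36 * i * b * (a ^ 2 + a * b + b ^ 2)) =
        3 * (-3 * (a + 2 * b) ^ 2) ^ 2 - 27 * Ht a b ∧
      (-3 * i * (a + 2 * b)) ^ 2 = 3 * (-3 * (a + 2 * b) ^ 2) := by
  refine ⟨?_, by linear_combination 9 * (a + 2 * b) ^ 2 * hi⟩
  simp only [Ht]; linear_combination (-216 * b * (a + 2 * b) * (a ^ 2 + a * b + b ^ 2)) * hi

lemma eq_zero_of_Ht_ft (h : Ht a b = 0) (h' : ft a b = 0) : a = 0 ∧ b = 0 := by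
  simp only [Ht, ft, mul_eq_zero] at h h'
  rcases h' with rfl | h'
  · simpa using h
  · have e : 9 * (a ^ 4) = 0 := by linear_combination h + 8 * a * h'
    have ha : a = 0 := by simpa using e
    subst ha
    exact ⟨rfl, by simpa using h'⟩

/-- Every nonsingular pair of invariants is attained by the Hesse pencil. -/
theorem exists_point [IsAlgClosed K] {c4 c6 : K} (h : c4 ^ 3 ≠ c6 ^ 2) :
    ∃ a b : K, Ht a b = c4 ∧ Tt a b = c6 := by
  have hd : c4 ^ 3 - c6 ^ 2 ≠ 0 := sub_ne_zero.2 h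
  obtain ⟨z, hz⟩ : ∃ z : K, (c4 ^ 3 - c6 ^ 2) * Ht z 1 ^ 3 - 64 * c4 ^ 3 * ft z 1 ^ 3 = 0 := by
    set p : K[X] := C (c4 ^ 3 - c6 ^ 2) * Ht X 1 ^ 3 - C (64 * c4 ^ 3) * ft X 1 ^ 3 with hp
    have h1 : (Ht (X : K[X]) 1).natDegree = 4 := by
      simp only [Ht]; simp; compute_degree!
    have h2 : (ft (X : K[X]) 1).natDegree ≤ 3 := by
      simp only [ft]; simp; compute_degree
    have h3 : (C (64 * c4 ^ 3) * ft (X : K[X]) 1 ^ 3).natDegree ≤ 9 :=
      (natDegree_C_mul_le _ _).trans (natDegree_pow_le.trans (by omega))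
    have h4 : (C (c4 ^ 3 - c6 ^ 2) * Ht (X : K[X]) 1 ^ 3).natDegree = 12 := by
      rw [natDegree_C_mul hd, natDegree_pow, h1]
    have h12 : p.natDegree = 12 := by
      rw [hp, natDegree_sub_eq_left_of_natDegree_lt (by omega), h4]
    obtain ⟨z, hz⟩ := IsAlgClosed.exists_root p (by
      intro h0; have := natDegree_eq_zero_iff_degree_le_zero.2 h0.le; omega)
    refine ⟨z, ?_⟩
    simpa [hp, IsRoot, Ht, ft] using hz
  have hf : ft z 1 ≠ 0 := fun hf => by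
    rw [hf] at hz
    have : Ht z 1 = 0 := by simpa [hd] using hz
    simpa using (eq_zero_of_Ht_ft this hf).2
  have hT := Ht_cube_sub_Tt_sq z 1
  have eH : (c4 ^ 3 - c6 ^ 2) * Ht z 1 ^ 3 = 64 * c4 ^ 3 * ft z 1 ^ 3 := sub_eq_zero.1 hz
  have eT : (c4 ^ 3 - c6 ^ 2) * Tt z 1 ^ 2 = 64 * c6 ^ 2 * ft z 1 ^ 3 := by
    linear_combination eH - (c4 ^ 3 - c6 ^ 2) * hT
  obtain ⟨ν, hν4, hν6⟩ : ∃ ν : K, ν ^ 2 * Ht z 1 = c4 ∧ ν ^ 3 * Tt z 1 = c6 := by
    by_cases h4 : c4 = 0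
    · have h6 : c6 ≠ 0 := by rintro rfl; simp [h4] at h
      have hH : Ht z 1 = 0 := by simpa [h4, h6] using eH
      have hT0 : Tt z 1 ≠ 0 := by intro e; simp [e, h6, hf] at eT
      obtain ⟨ν, hν⟩ := IsAlgClosed.exists_pow_nat_eq (c6 / Tt z 1) (show 0 < 3 by norm_num)
      exact ⟨ν, by simp [hH, h4], by rw [hν, div_mul_cancel₀ _ hT0]⟩
    · have hH : Ht z 1 ≠ 0 := by intro e; simp [e, h4, hf] at eH
      by_cases h6 : c6 = 0
      · have hT0 : Tt z 1 = 0 := by simpa [h6, h4] using eT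
        obtain ⟨ν, hν⟩ := IsAlgClosed.exists_pow_nat_eq (c4 / Ht z 1) (show 0 < 2 by norm_num)
        exact ⟨ν, by rw [hν, div_mul_cancel₀ _ hH], by simp [hT0, h6]⟩
      · have hT0 : Tt z 1 ≠ 0 := by intro e; simp [e, h6, hf] at eT
        refine ⟨c6 * Ht z 1 / (c4 * Tt z 1), ?_, ?_⟩
        · field_simp
          refine mul_left_cancel₀ hd ?_
          linear_combination c6 ^ 2 * eH - c4 ^ 3 * eT
        · field_simp
          refine mul_left_cancel₀ hd ?_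
          linear_combination c6 ^ 2 * eH - c4 ^ 3 * eT
  obtain ⟨μ, hμ⟩ := IsAlgClosed.exists_pow_nat_eq ν (show 0 < 2 by norm_num)
  refine ⟨μ * z, μ, ?_, ?_⟩
  · rw [← hν4, ← hμ]; simp only [Ht]; ring
  · rw [← hν6, ← hμ]; simp only [Tt]; ring

end Explicit

end Fermat.Agent.Row42
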