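import Fermat.Agent.Row42.Degeneracy
import Fermat.Agent.Row42.Goals
import Fermat.Agent.General.Residual3
import Fermat.Agent.S23
import Fermat.Agent.S49
import Fermat.Prelude.Def_CuspForm_IntegralLattice
import Fermat.Prelude.Def_FormalHecke_Eigensystem

/-!
# A formal eigensystem of cube-free level from a modular partner

The form of the partner, stripped at the bad primes, is congruent modulo three to the formal
eigensystem with nebentypus the character of conductor three.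
-/

set_option autoImplicit false

noncomputable section

open WeierstrassCurve WeierstrassCurve.Affine WeierstrassCurve.Affine.Point EisensteinWeightOne
  CongruenceSubgroup

namespace Fermat.Agent.Row42

/-- The recursion at a prime: `x`, then `xᵣ₊₂ = x xᵣ₊₁ - e xᵣ`. -/
def primePowSeq (x e : ℤ) : ℕ → ℤ
  | 0 => 1
  | 1 => x
  | r + 2 => x * primePowSeq x e (r + 1) - e * primePowSeq x e r

/-- The multiplicative sequence with prime values `α` and recursion parameters `ε`. -/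
def eigenSeq (α ε : ℕ → ℤ) (n : ℕ) : ℤ :=
  if n = 0 then 0 else n.factorization.prod fun p r => primePowSeq (α p) (ε p) r

variable {α ε : ℕ → ℤ}

theorem eigenSeq_zero : eigenSeq α ε 0 = 0 := if_pos rfl

theorem eigenSeq_one : eigenSeq α ε 1 = 1 := by
  simp [eigenSeq]

theorem eigenSeq_pow_mul {p : ℕ} (hp : p.Prime) (r : ℕ) {m : ℕ} (hm : ¬ p ∣ m) :
    eigenSeq α ε (p ^ r * m) = primePowSeq (α p) (ε p) r * eigenSeq α ε m := by
  have hm0 : m ≠ 0 := fun h => hm (h ▸ dvd_zero p)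
  have hc : (p ^ r).Coprime m := ((hp.coprime_iff_not_dvd).2 hm).pow_left r
  rw [eigenSeq, if_neg (mul_ne_zero (pow_ne_zero r hp.ne_zero) hm0), eigenSeq, if_neg hm0,
    Nat.factorization_mul_of_coprime hc, Finsupp.prod_add_index_of_disjoint ?_,
    hp.factorization_pow, Finsupp.prod_single_index rfl]
  simpa only [Nat.support_factorization] using hc.disjoint_primeFactors

theorem eigenSeq_prime {p : ℕ} (hp : p.Prime) : eigenSeq α ε p = α p := by
  have h := eigenSeq_pow_mul (α := α) (ε := ε) hp 1 hp.not_dvd_one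
  rwa [pow_one, mul_one, eigenSeq_one, mul_one] at h

theorem isEigensystem_eigenSeq : FormalHecke.IsEigensystem ε (eigenSeq α ε) := by
  refine ⟨eigenSeq_one, fun ℓ hℓ n => ?_⟩
  rcases eq_or_ne n 0 with rfl | hn
  · simp [eigenSeq_zero]
  obtain ⟨r, m, hm, rfl⟩ := Nat.exists_eq_pow_mul_and_not_dvd hn ℓ hℓ.ne_one
  rw [← mul_assoc, ← pow_succ', eigenSeq_pow_mul hℓ _ hm, eigenSeq_pow_mul hℓ _ hm,
    eigenSeq_prime hℓ]
  rcases r with _ | r
  · simp [hm, primePowSeq]
  · have e : ℓ ^ (r + 1) * m / ℓ = ℓ ^ r * m := by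
      rw [pow_succ', mul_assoc, Nat.mul_div_cancel_left _ hℓ.pos]
    rw [if_pos ((dvd_pow_self ℓ r.succ_ne_zero).mul_right m), e, eigenSeq_pow_mul hℓ _ hm]
    simp only [primePowSeq]
    ring

/-- A sequence satisfying the recursion modulo three is congruent to the formal one. -/
theorem three_dvd_sub_eigenSeq {c : ℕ → ℤ} (h0 : c 0 = 0) (h1 : c 1 = 1)
    (hrec : ∀ p : ℕ, p.Prime → ∀ n,
      (3 : ℤ) ∣ c (p * n) + ε p * (if p ∣ n then c (n / p) else 0) - α p * c n) (n : ℕ) :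
    (3 : ℤ) ∣ c n - eigenSeq α ε n := by
  induction n using Nat.strong_induction_on with
  | _ n ih =>
    rcases eq_or_ne n 0 with rfl | hn0
    · simp [h0, eigenSeq_zero]
    rcases eq_or_ne n 1 with rfl | hn1
    · simp [h1, eigenSeq_one]
    obtain ⟨p, hp, m, rfl⟩ : ∃ p, p.Prime ∧ ∃ m, n = p * m :=
      ⟨n.minFac, Nat.minFac_prime hn1, n / n.minFac,
        (Nat.mul_div_cancel' (Nat.minFac_dvd n)).symm⟩
    have hm : 0 < m := Nat.pos_of_ne_zero fun h => hn0 (by rw [h, mul_zero])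
    have hlt : m < p * m := lt_mul_of_one_lt_left hm hp.one_lt
    have ha := (isEigensystem_eigenSeq (α := α) (ε := ε)).2 p hp m
    rw [eigenSeq_prime hp] at ha
    by_cases hd : p ∣ m
    · have hr := hrec p hp m
      rw [if_pos hd] at hr ha
      have hsum := dvd_sub (dvd_add hr (dvd_mul_of_dvd_right (ih m hlt) (α p)))
        (dvd_mul_of_dvd_right (ih (m / p) ((Nat.div_le_self m p).trans_lt hlt)) (ε p))
      refine (congrArg _ ?_).mp hsum
      linear_combination ha
    · have hr := hrec p hp m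
      rw [if_neg hd] at hr ha
      have hsum := dvd_add hr (dvd_mul_of_dvd_right (ih m hlt) (α p))
      refine (congrArg _ ?_).mp hsum
      linear_combination ha

theorem three_dvd_natCast_sub_chiNegThree (n : ℕ) : (3 : ℤ) ∣ (n : ℤ) - chiNegThree n := by
  refine (ZMod.intCast_zmod_eq_zero_iff_dvd _ 3).mp ?_
  push_cast
  rw [S49.natCast_eq_chiNegThree, sub_self]

/-- Forms with rational integral expansion span. -/
theorem hasIntegralBasis (N : ℕ) [NeZero N] : CuspForm.HasIntegralBasis N := by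
  refine eq_top_iff.2 ?_
  rw [← (S23.result N : CuspForm.HasIntegralStructure N 2), CuspForm.intLattice,
    Submodule.span_span_of_tower]
  refine Submodule.span_mono fun f hf n => ?_
  obtain ⟨m, hm⟩ := hf n
  exact Subring.mem_bot.2 ⟨m, hm.symm⟩

/-- The statement of S46 from a modular partner. -/
theorem s46_of (hP : ModularPartner) :
    ∀ W : WeierstrassCurve ℤ, W.Δ ≠ 0 → W.IsSemistableModel → W.ModRepIsIrreducible 3 →
      ∃ (N : ℕ) (_ : NeZero N) (a : ℕ → ℤ),
        CuspForm.HasIntegralBasis N ∧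
        FormalHecke.IsEigensystem
          (fun ℓ => if ℓ ∣ N then 0 else ((chiNegThree ℓ : ℤ) : ℤ)) a ∧
        CuspForm.IsLatticeRealized N a ∧
        (∀ q : ℕ, q.Prime → q ≠ 3 → ¬ q ^ 3 ∣ N) ∧
        ∀ ℓ : ℕ, ℓ.Prime → W.IsGoodPrimeFor ℓ → ¬ ℓ ∣ N → ℓ ≠ 3 →
          (3 : ℤ) ∣ (a ℓ - W.apOfModel ℓ) := by
  classical
  intro W hΔ hW _
  obtain ⟨W', N, hΔ', hN, hsq, hsupp, ⟨f, hf, hcoef⟩, hcongr, -⟩ := hP W hΔ hW
  have : NeZero N := ⟨hN.ne'⟩
  set N₀ : ℕ := ∏ q ∈ W'.Δ.natAbs.primeFactors, q with hN₀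
  have hne : N₀ ≠ 0 := Finset.prod_ne_zero_iff.2 fun q hq =>
    (Nat.prime_of_mem_primeFactors hq).ne_zero
  have : NeZero N₀ := ⟨hne⟩
  have hdvd : ∀ {q : ℕ}, q.Prime → (q ∣ N₀ ↔ (q : ℤ) ∣ W'.Δ) := fun {q} hq => by
    rw [hN₀, Int.natCast_dvd]
    refine ⟨fun h => ?_, fun h => Finset.dvd_prod_of_mem _ (hq.mem_primeFactors h
      (Int.natAbs_ne_zero.2 hΔ'))⟩
    obtain ⟨r, hr, hqr⟩ := hq.prime.exists_mem_finset_dvd h
    rw [(Nat.prime_dvd_prime_iff_eq hq (Nat.prime_of_mem_primeFactors hr)).1 hqr]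
    exact Nat.dvd_of_mem_primeFactors hr
  have hsq₀ : Squarefree N₀ := Finset.squarefree_prod_of_pairwise_isCoprime
    (fun q hq r hr hqr => Nat.coprime_iff_isRelPrime.1
      ((Nat.coprime_primes (Nat.prime_of_mem_primeFactors hq)
        (Nat.prime_of_mem_primeFactors hr)).2 hqr))
    fun q hq => (Nat.prime_of_mem_primeFactors hq).squarefree
  have hNN₀ : N ∣ N₀ := by
    rw [← Nat.prod_primeFactors_of_squarefree hsq]
    exact Finset.prod_dvd_prod_of_subset _ _ _ fun q hq =>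
      (Nat.prime_of_mem_primeFactors hq).mem_primeFactors
        (Int.natCast_dvd.1 (hsupp q (Nat.prime_of_mem_primeFactors hq)
          (Nat.dvd_of_mem_primeFactors hq))) (Int.natAbs_ne_zero.2 hΔ')
  set α : ℕ → ℤ := fun ℓ => if ℓ ∣ N₀ then 0 else W'.apOfModel ℓ with hα
  have hfp : ∀ p : ℕ, p.Prime → ¬ p ∣ N₀ → ModularFormClass.qCoeff f p = (α p : ℂ) :=
    fun p hp hpN => by
      simp only [hα, if_neg hpN]
      exact hcoef p hp (fun h => hpN ((hdvd hp).2 h)) fun h => hpN (h.trans hNN₀)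
  -- the stripped form
  obtain ⟨g, hg⟩ := exists_strip_dvd N₀ dvd_rfl
    (dilate (M := N₀) one_ne_zero (by rw [one_mul]; exact hNN₀) f)
  simp only [qCoeff_dilate, one_dvd, if_true, Nat.div_one] at hg
  have hrel : ∀ p : ℕ, p.Prime → ∀ n, ModularFormClass.qCoeff g (p * n) =
      (α p : ℂ) * ModularFormClass.qCoeff g n -
        (if p ∣ N₀ then 0 else (p : ℂ)) *
          (if p ∣ n then ModularFormClass.qCoeff g (n / p) else 0) := by
    intro p hp n
    rw [hg (p * n), hg n, hg (n / p)]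
    by_cases hpN : p ∣ N₀
    · have hc : ¬ (p * n).Coprime N₀ := fun h =>
        hp.not_dvd_one (h.gcd_eq_one ▸ Nat.dvd_gcd (dvd_mul_right p n) hpN)
      simp [hα, hpN, hc]
    have hcp : p.Coprime N₀ := hp.coprime_iff_not_dvd.2 hpN
    by_cases hc : n.Coprime N₀
    · rw [if_pos (hcp.mul_left hc), if_pos hc, mul_comm p n, HeckeEigen.qCoeff_relation hf hp n,
        hfp p hp hpN, if_neg hpN]
      by_cases hd : p ∣ n
      · rw [if_pos ⟨fun h => hpN (h.trans hNN₀), hd⟩, if_pos hd,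
          if_pos (hc.coprime_dvd_left (Nat.div_dvd_of_dvd hd))]
      · rw [if_neg (fun h => hd h.2), if_neg hd, mul_zero]
    · rw [if_neg (fun h => hc (h.coprime_dvd_left (dvd_mul_left n p))), if_neg hc]
      by_cases hd : p ∣ n
      · have hc' : ¬ (n / p).Coprime N₀ := fun h => hc (by
          rw [← Nat.mul_div_cancel' hd]
          exact hcp.mul_left h)
        rw [if_pos hd, if_neg hc', mul_zero, mul_zero, sub_zero]
      · simp [hd]
  have hint : ∀ n, ∃ z : ℤ, ModularFormClass.qCoeff g n = (z : ℂ) := by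
    intro n
    induction n using Nat.strong_induction_on with
    | _ n ih =>
      rcases eq_or_ne n 0 with rfl | hn0
      · exact ⟨0, by rw [HeckeEigen.qCoeff_zero, Int.cast_zero]⟩
      rcases eq_or_ne n 1 with rfl | hn1
      · exact ⟨1, by rw [hg 1, if_pos (Nat.coprime_one_left _), hf.qCoeff_one, Int.cast_one]⟩
      obtain ⟨p, hp, m, rfl⟩ : ∃ p, p.Prime ∧ ∃ m, n = p * m :=
        ⟨n.minFac, Nat.minFac_prime hn1, n / n.minFac,
          (Nat.mul_div_cancel' (Nat.minFac_dvd n)).symm⟩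
      have hlt : m < p * m := lt_mul_of_one_lt_left
        (Nat.pos_of_ne_zero fun h => hn0 (by rw [h, mul_zero])) hp.one_lt
      obtain ⟨z, hz⟩ := ih m hlt
      obtain ⟨w, hw⟩ := ih (m / p) ((Nat.div_le_self m p).trans_lt hlt)
      refine ⟨α p * z - (if p ∣ N₀ then 0 else (p : ℤ)) * (if p ∣ m then w else 0), ?_⟩
      rw [hrel p hp m, hz, hw]
      push_cast
      rfl
  choose c hc using hint
  have hN' : NeZero (N₀ * N₀) := inferInstance
  have hdvd' : ∀ {ℓ : ℕ}, ℓ.Prime → (ℓ ∣ N₀ * N₀ ↔ ℓ ∣ N₀) := fun hℓ =>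
    ⟨fun h => (hℓ.dvd_mul.1 h).elim id id, fun h => h.mul_right _⟩
  set ε : ℕ → ℤ := fun ℓ => if ℓ ∣ N₀ * N₀ then 0 else ((chiNegThree ℓ : ℤ) : ℤ) with hε
  have hca : ∀ n, (3 : ℤ) ∣ c n - eigenSeq α ε n := by
    refine three_dvd_sub_eigenSeq ?_ ?_ fun p hp n => ?_
    · exact_mod_cast (hc 0).symm.trans (HeckeEigen.qCoeff_zero g)
    · exact_mod_cast (hc 1).symm.trans
        ((hg 1).trans ((if_pos (Nat.coprime_one_left _)).trans hf.qCoeff_one))
    · have e : c (p * n) = α p * c n -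
          (if p ∣ N₀ then 0 else (p : ℤ)) * (if p ∣ n then c (n / p) else 0) := by
        have h := hrel p hp n
        rw [hc, hc, hc] at h
        apply Int.cast_injective (α := ℂ)
        rw [h]
        push_cast
        rfl
      rw [e]
      simp only [hε, hdvd' hp]
      split_ifs with h1 h2 <;> try simp
      refine (congrArg _ ?_).mp
        (dvd_mul_of_dvd_left (dvd_neg.2 (three_dvd_natCast_sub_chiNegThree p)) (c (n / p)))
      ring
  refine ⟨N₀ * N₀, hN', eigenSeq α ε, hasIntegralBasis _, isEigensystem_eigenSeq,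
    ⟨g, fun n => Subring.mem_bot.2 ⟨c n, (hc n).symm⟩, c, fun n => (hc n).symm, fun n => ?_⟩,
    fun q hq _ h => ?_, fun ℓ hℓ hgood hℓN hℓ3 => ?_⟩
  · have h : (3 : ℤ) ∣ eigenSeq α ε n - (bridgeProduct (eigenSeq α ε)).coeff n := by
      refine (ZMod.intCast_zmod_eq_zero_iff_dvd _ 3).mp ?_
      push_cast
      rw [S49.bridgeProduct_coeff_mod_three, sub_self]
    simpa using dvd_add (hca n) h
  · have h2 : (N₀ * N₀).factorization q ≤ 2 := by
      rw [Nat.factorization_mul hne hne, Finsupp.add_apply]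
      have := hsq₀.natFactorization_le_one q
      omega
    have h3 := (hq.pow_dvd_iff_le_factorization (mul_ne_zero hne hne)).1 h
    omega
  · rw [eigenSeq_prime hℓ]
    simp only [hα, if_neg fun h => hℓN ((hdvd' hℓ).2 h)]
    exact hcongr ℓ hℓ hℓ3 hgood fun h => hℓN ((hdvd' hℓ).2 ((hdvd hℓ).2 h))

/-- The statement of S50 from a modular partner. -/
theorem s50_of (hP : ModularPartner) (W : WeierstrassCurve ℤ) (hΔ : W.Δ ≠ 0)
    (hW : W.IsSemistableModel) (_h3 : W.ModRepIsIrreducible 3) :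
    ∃ M : ℕ, 0 < M ∧ W.IsResiduallyModularOfLevel 3 M ∧
      (∀ q : ℕ, q.Prime → q ≠ 3 → ¬ q ^ 3 ∣ M) ∧
      (3 ^ 2 ∣ M →
        ∀ A : ValuationSubring (AlgebraicClosure ℚ), A.LiesOverPrime 3 →
          ∀ x : Submodule.torsionBy ℤ
              ((W.map (Int.castRingHom ℚ))⁄(AlgebraicClosure ℚ)).Point (3 : ℕ),
            (∀ σ ∈ A.inertiaSubgroupIn ℚ, σ • x = x) → x = 0) := by
  have : Fact (Nat.Prime 3) := ⟨Nat.prime_three⟩
  obtain ⟨W', N, hΔ', hN, hsq, -, hmod, hcongr, -⟩ := hP W hΔ hW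
  have hno : ∀ q : ℕ, q.Prime → ¬ q ^ 2 ∣ N := fun q hq h => hq.not_isUnit
    (hsq q (by rwa [← pow_two]))
  exact ⟨N, hN, General.residuallyModular_of_congr hΔ hΔ' hN hmod hcongr,
    fun q hq _ h => hno q hq ((pow_dvd_pow q (by norm_num : 2 ≤ 3)).trans h),
    fun h => absurd h (hno 3 Nat.prime_three)⟩

end Fermat.Agent.Row42
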