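import Fermat.Agent.ThreeFive.TorsionIso

/-!
# Specialisation of three-torsion on short models
-/

set_option autoImplicit false

namespace Fermat.Agent.Row42

open WeierstrassCurve Fermat.Agent.ThreeFive

variable {L K : Type*} [Field L] [Field K] [CharZero L] [CharZero K] [DecidableEq L] [DecidableEq K]
  (E : EvalRing L K) {c4 c6 : E.O}

/-- Three-torsion points are integral. -/
lemma isInt_of_three_smul (h : E.ev c4 ^ 3 ≠ E.ev c6 ^ 2) {P : (E.gen c4 c6).Point}
    (hP : (3 : ℤ) • P = 0) : E.IsInt P := by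
  rcases P with _ | ⟨x, y, hxy⟩
  · trivial
  rcases E.dichotomy x with hx | ⟨w, hw, hxw⟩
  · refine ⟨hx, E.mem_of_sq_mem ?_⟩
    rw [(SW_equation_iff _ _ _ _).1 hxy.1]
    exact sub_mem (sub_mem (pow_mem hx 3) (mul_mem (mul_mem (natCast_mem E.O 27) c4.2) hx))
      (mul_mem (natCast_mem E.O 54) c6.2)
  exfalso
  set P : (E.gen c4 c6).Point := .some x y hxy with hPdef
  have hP0 : P ≠ 0 := Affine.Point.some_ne_zero hxy
  have hy : y ≠ 0 := by
    intro h0
    have : P + P = 0 := by
      rw [hPdef, Affine.Point.add_self_of_Y_eq (by rw [SW_negY, h0, neg_zero])]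
    apply hP0
    calc P = (3 : ℤ) • P - (P + P) := by abel
      _ = 0 := by rw [hP, this, sub_zero]
  obtain ⟨x₂, y₂, h₂, w₂, u, hQ, -, -, hxw₂, hu, hw₂'⟩ := E.double_nonint h hxy hy hw hxw
  have h2P : (Affine.Point.some x₂ y₂ h₂ : (E.gen c4 c6).Point) = -P := by
    rw [← hQ]
    refine eq_neg_of_add_eq_zero_left ?_
    rw [← hP]; abel
  rw [hPdef, Affine.Point.neg_some] at h2P
  obtain ⟨rfl, -⟩ : x₂ = x ∧ _ := by simpa only [Affine.Point.some.injEq] using h2P
  have hw0 : (w : L) ≠ 0 := by intro h0; simp [h0] at hxw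
  have hx0 : x₂ ≠ 0 := by intro h0; simp [h0] at hxw
  have hww : (w₂ : L) = (w : L) := mul_left_cancel₀ hx0 (hxw₂.trans hxw.symm)
  have h4 : (4 : E.O) * u = 1 := by
    ext; push_cast
    refine mul_left_cancel₀ hw0 ?_
    linear_combination hww - hw₂'
  have := congrArg E.ev h4
  simp [hu, map_ofNat] at this

/-- Specialisation restricted to three-torsion. -/
noncomputable def spThree (h : E.ev c4 ^ 3 ≠ E.ev c6 ^ 2) :
    Submodule.torsionBy ℤ (E.gen c4 c6).Point 3 →+
      Submodule.torsionBy ℤ (E.spec c4 c6).Point 3 :=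
  let f : Submodule.torsionBy ℤ (E.gen c4 c6).Point 3 →+ (E.spec c4 c6).Point :=
    { toFun := fun P => E.sp c4 c6 h P.1
      map_zero' := rfl
      map_add' := fun P Q => E.sp_add h
        (isInt_of_three_smul E h ((Submodule.mem_torsionBy_iff _ _).1 P.2))
        (isInt_of_three_smul E h ((Submodule.mem_torsionBy_iff _ _).1 Q.2))
        (isInt_of_three_smul E h ((Submodule.mem_torsionBy_iff _ _).1 (P + Q).2)) }
  f.codRestrict _ fun P => (Submodule.mem_torsionBy_iff _ _).2 <| by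
    rw [← map_zsmul f, show (3 : ℤ) • P = 0 from Submodule.smul_torsionBy _ P, map_zero]

lemma coe_spThree (h : E.ev c4 ^ 3 ≠ E.ev c6 ^ 2)
    (P : Submodule.torsionBy ℤ (E.gen c4 c6).Point 3) :
    ((spThree E h P : Submodule.torsionBy ℤ (E.spec c4 c6).Point 3) : (E.spec c4 c6).Point) =
      E.sp c4 c6 h P.1 := rfl

lemma spThree_injective (h : E.ev c4 ^ 3 ≠ E.ev c6 ^ 2) :
    Function.Injective (spThree E h) := by
  rw [injective_iff_map_eq_zero]
  intro P hP
  have := congrArg Subtype.val hP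
  rw [coe_spThree] at this
  exact Subtype.ext ((E.sp_eq_zero_iff h
    (isInt_of_three_smul E h ((Submodule.mem_torsionBy_iff _ _).1 P.2))).1 this)

section MapSW

variable {L' : Type*} [Field L'] [CharZero L'] [DecidableEq L']
  (φ : L →+* L') {d4 d6 : L} {d4' d6' : L'} (h4 : φ d4 = d4') (h6 : φ d6 = d6')

/-- Functoriality on three-torsion. -/
noncomputable def mapThree : Submodule.torsionBy ℤ (SW d4 d6).Point 3 →+
    Submodule.torsionBy ℤ (SW d4' d6').Point 3 :=
  ((mapSWHom φ h4 h6).comp (Submodule.torsionBy ℤ (SW d4 d6).Point 3).subtype.toAddMonoidHom)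
    |>.codRestrict _ fun P => (Submodule.mem_torsionBy_iff _ _).2 <| by
      rw [AddMonoidHom.comp_apply, ← map_zsmul]
      show mapSWHom φ h4 h6 ((3 : ℤ) • (P : (SW d4 d6).Point)) = 0
      rw [(Submodule.mem_torsionBy_iff _ _).1 P.2, map_zero]

lemma coe_mapThree (P : Submodule.torsionBy ℤ (SW d4 d6).Point 3) :
    ((mapThree φ h4 h6 P : Submodule.torsionBy ℤ (SW d4' d6').Point 3) : (SW d4' d6').Point)
      = mapSW φ h4 h6 P.1 := rfl

lemma mapThree_injective : Function.Injective (mapThree φ h4 h6) := by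
  intro P Q hPQ
  have := congrArg Subtype.val hPQ
  rw [coe_mapThree, coe_mapThree] at this
  rcases P with ⟨_ | ⟨x, y, hxy⟩, hP⟩ <;> rcases Q with ⟨_ | ⟨x', y', hxy'⟩, hQ⟩ <;>
    simp [mapSW] at this ⊢
  exact ⟨φ.injective this.1, φ.injective this.2⟩

end MapSW

end Fermat.Agent.Row42
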