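import Fermat.Agent.Row42.Specialise
import Fermat.Agent.Row42.Points

/-!
# The Galois-equivariant isomorphism of three-torsion along the family
-/

set_option autoImplicit false

namespace Fermat.Agent.Row42

open WeierstrassCurve Fermat.Agent.ThreeFive Polynomial

variable {K : Type} [Field K] [CharZero K] [IsAlgClosed K]
  [DecidableEq K] [DecidableEq (RatFunc K)]

/-- The `c₄` of the members as a polynomial in the parameter. -/
noncomputable def P4 (c4 c6 : ℚ) : ℚ[X] := cFour (C c4) (C c6) 1 X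

/-- The `c₆` of the members as a polynomial in the parameter. -/
noncomputable def P6 (c4 c6 : ℚ) : ℚ[X] := cSix (C c4) (C c6) 1 X

lemma eval_P4 (c4 c6 t : ℚ) : (P4 c4 c6).eval t = cFour c4 c6 1 t := by
  rw [P4, ← coe_evalRingHom, map_cFour]; simp

lemma eval_P6 (c4 c6 t : ℚ) : (P6 c4 c6).eval t = cSix c4 c6 1 t := by
  rw [P6, ← coe_evalRingHom, map_cSix]; simp

variable (c4 c6 : ℚ)

/-- The generic `c₄`. -/
noncomputable abbrev G4 : K[X] := (P4 c4 c6).map (algebraMap ℚ K)

/-- The generic `c₆`. -/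
noncomputable abbrev G6 : K[X] := (P6 c4 c6).map (algebraMap ℚ K)

variable (K) in
/-- The generic member of the family. -/
noncomputable abbrev genCurve : Affine (RatFunc K) :=
  SW (algebraMap K[X] (RatFunc K) (G4 c4 c6)) (algebraMap K[X] (RatFunc K) (G6 c4 c6))

variable {c4 c6}

omit [IsAlgClosed K] [DecidableEq K] [DecidableEq (RatFunc K)] in
lemma G4_eq {a b : K} (h4 : Ht a b = algebraMap ℚ K c4) (h6 : Tt a b = algebraMap ℚ K c6) :
    Ht (C a + X * C (wA a b)) (C b + X * C (wB a b)) = G4 c4 c6 ∧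
      Tt (C a + X * C (wA a b)) (C b + X * C (wB a b)) = G6 c4 c6 := by
  have e0 : (C a + X * C (wA a b) : K[X]) = C a + X * wA (C a) (C b) := by simp [wA, map_ofNat]
  have e1 : (C b + X * C (wB a b) : K[X]) = C b + X * wB (C a) (C b) := by simp [wB, map_ofNat]
  rw [e0, e1, Ht_line, Tt_line, ← map_Ht, ← map_Tt, h4, h6, G4, G6, P4, P6,
    ← coe_mapRingHom, map_cFour, map_cSix]
  simp

omit [DecidableEq K] in
/-- The generic member has at least nine points of order dividing three. -/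
lemma exists_embedding (h : c4 ^ 3 ≠ c6 ^ 2) :
    ∃ g : Fin 3 × Fin 3 → Submodule.torsionBy ℤ (genCurve K c4 c6).Point 3,
      Function.Injective g := by
  have hK : (algebraMap ℚ K c4) ^ 3 ≠ (algebraMap ℚ K c6) ^ 2 := by
    rw [← map_pow, ← map_pow]; exact fun e => h ((algebraMap ℚ K).injective e)
  obtain ⟨a, b, hH, hT⟩ := exists_point hK
  obtain ⟨s, hs⟩ := IsAlgClosed.exists_pow_nat_eq (3 : K) (show 0 < 2 by norm_num)
  obtain ⟨i, hi⟩ := IsAlgClosed.exists_pow_nat_eq (-1 : K) (show 0 < 2 by norm_num)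
  set ι := algebraMap K[X] (RatFunc K) with hι
  set A := ι (C a + X * C (wA a b)) with hA
  set B := ι (C b + X * C (wB a b)) with hB
  set S := ι (C s)
  set I := ι (C i)
  have hS : S ^ 2 = 3 := by simp only [S, ← map_pow, hs, map_ofNat]
  have hI : I ^ 2 = -1 := by simp only [I, ← map_pow, hi, map_neg, map_one]
  obtain ⟨e4, e6⟩ := G4_eq hH hT
  have hA4 : Ht A B = ι (G4 c4 c6) := by rw [← e4]; exact (map_Ht ι _ _).symm
  have hA6 : Tt A B = ι (G6 c4 c6) := by rw [← e6]; exact (map_Tt ι _ _).symm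
  have hne : Ht A B ^ 3 ≠ Tt A B ^ 2 := by
    rw [hA4, hA6, ← map_pow, ← map_pow]
    intro e
    have := congrArg (Polynomial.eval 0) (RatFunc.algebraMap_injective K e)
    rw [eval_pow, eval_pow, G4, G6, ← map_zero (algebraMap ℚ K), Polynomial.eval_map_apply,
      Polynomial.eval_map_apply, eval_P4, eval_P6, cFour_one_zero, cSix_one_zero] at this
    exact hK this
  rw [show genCurve K c4 c6 = SW (Ht A B) (Tt A B) by rw [hA4, hA6]]
  have eP := P_equation (a := A) (b := B) hS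
  have eQ := Q_equation (a := A) (b := B) hI
  set P := SW.mk hne eP with hP
  set Q := SW.mk hne eQ with hQ
  have P3 : (3 : ℤ) • P = 0 := three_smul_mk hne eP (P_slope (b := B) hS).1 (P_slope (b := B) hS).2
  have Q3 : (3 : ℤ) • Q = 0 := three_smul_mk hne eQ (Q_slope hI).1 (Q_slope hI).2
  have hx : -3 * (A + 2 * B) ^ 2 ≠ 9 * A ^ 2 := by
    intro e
    have e' : (-3 * ((C a + X * C (wA a b)) + 2 * (C b + X * C (wB a b))) ^ 2 : K[X]) =
        9 * (C a + X * C (wA a b)) ^ 2 := by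
      apply RatFunc.algebraMap_injective K
      simpa [A, B, hι, map_ofNat] using e
    have h0 := congrArg (Polynomial.eval 0) e'
    have e0 : a ^ 2 + a * b + b ^ 2 = 0 := by
      simp at h0
      have : (12 : K) * (a ^ 2 + a * b + b ^ 2) = 0 := by linear_combination -h0
      simpa using this
    apply hK
    have := Ht_cube_sub_Tt_sq a b
    rw [hH, hT, show ft a b = b * (a - b) * (a ^ 2 + a * b + b ^ 2) by simp only [ft]; ring,
      e0] at this
    linear_combination this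
  have hmult : ∀ k : ℤ, Q ≠ k • P := by
    intro k hk
    have hk3 : k • P = (k % 3) • P := by
      conv_lhs => rw [← Int.mul_ediv_add_emod k 3, add_zsmul, mul_zsmul', P3, smul_zero, zero_add]
    rw [hk3] at hk
    have : k % 3 = 0 ∨ k % 3 = 1 ∨ k % 3 = 2 := by omega
    rcases this with e | e | e <;> rw [e] at hk
    · rw [zero_zsmul] at hk; exact Affine.Point.some_ne_zero _ hk
    · rw [one_zsmul] at hk
      simp only [hP, hQ, SW.mk, Affine.Point.some.injEq] at hk
      exact hx hk.1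
    · have : (2 : ℤ) • P = -P := by
        calc (2 : ℤ) • P = (3 : ℤ) • P - P := by abel
          _ = -P := by rw [P3, zero_sub]
      rw [this] at hk
      simp only [hP, hQ, SW.mk, Affine.Point.neg_some, Affine.Point.some.injEq] at hk
      exact hx hk.1
  refine ⟨fun ij => ⟨(ij.1 : ℤ) • P + (ij.2 : ℤ) • Q, ?_⟩, ?_⟩
  · rw [Submodule.mem_torsionBy_iff, smul_add, smul_comm _ (_ : ℤ) P, smul_comm _ (_ : ℤ) Q, P3,
      Q3, smul_zero, smul_zero, add_zero]
  · rintro ⟨p, q⟩ ⟨p', q'⟩ e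
    have e' : ((p : ℤ) - p') • P + ((q : ℤ) - q') • Q = 0 := by
      have := congrArg Subtype.val e
      simp only at this
      rw [sub_smul, sub_smul, sub_add_sub_comm, this, sub_self]
    have hj : ((q : ℤ) - q') % 3 = 0 := by
      by_contra hj
      obtain ⟨u, v, huv⟩ : IsCoprime ((q : ℤ) - q') 3 :=
        ((Nat.prime_iff_prime_int.1 Nat.prime_three).coprime_iff_not_dvd.2
          (fun hd => hj (Int.emod_eq_zero_of_dvd hd))).symm
      apply hmult (-(u * ((p : ℤ) - p')))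
      calc Q = (u * ((q : ℤ) - q') + v * 3) • Q := by rw [huv, one_zsmul]
        _ = u • (((p : ℤ) - p') • P + ((q : ℤ) - q') • Q) - (u * ((p : ℤ) - p')) • P
            + v • ((3 : ℤ) • Q) := by
          rw [add_zsmul, mul_zsmul', mul_zsmul', mul_zsmul', smul_add]
          simp only [smul_comm u, smul_comm v]
          abel
        _ = -(u * ((p : ℤ) - p')) • P := by
          rw [e', Q3, smul_zero, smul_zero, add_zero, zero_sub, neg_zsmul]
    have hqq : q = q' := Fin.ext (by omega)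
    subst hqq
    simp only [sub_self, zero_zsmul, add_zero] at e'
    have hpp : p = p' := by
      by_contra hne'
      have hp : ((p : ℤ) - p') % 3 ≠ 0 := by
        have : (p : ℕ) ≠ p' := fun c => hne' (Fin.ext c)
        omega
      obtain ⟨u, v, huv⟩ : IsCoprime ((p : ℤ) - p') 3 :=
        ((Nat.prime_iff_prime_int.1 Nat.prime_three).coprime_iff_not_dvd.2
          (fun hd => hp (Int.emod_eq_zero_of_dvd hd))).symm
      have : P = 0 := by
        calc P = (u * ((p : ℤ) - p') + v * 3) • P := by rw [huv, one_zsmul]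
          _ = u • (((p : ℤ) - p') • P) + v • ((3 : ℤ) • P) := by
            rw [add_zsmul, mul_zsmul', mul_zsmul']
            simp only [smul_comm u, smul_comm v]
          _ = 0 := by rw [e', P3, smul_zero, smul_zero, add_zero]
      exact Affine.Point.some_ne_zero _ this
    rw [hpp]

/-- Specialisation of the generic three-torsion at the rational parameter `t`. -/
noncomputable def spAt3 (t : ℚ) {d4 d6 : K} (e4 : algebraMap ℚ K (cFour c4 c6 1 t) = d4)
    (e6 : algebraMap ℚ K (cSix c4 c6 1 t) = d6) (hd : d4 ^ 3 ≠ d6 ^ 2) :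
    Submodule.torsionBy ℤ (genCurve K c4 c6).Point 3 →+
      Submodule.torsionBy ℤ (SW d4 d6).Point 3 :=
  (mapThree (RingHom.id K) (d4 := (evalAt (algebraMap ℚ K t)).ev (polyAt _ (G4 c4 c6)))
      (d6 := (evalAt (algebraMap ℚ K t)).ev (polyAt _ (G6 c4 c6)))
      (by rw [RingHom.id_apply, ev_polyAt, G4, Polynomial.eval_map_apply, eval_P4, e4])
      (by rw [RingHom.id_apply, ev_polyAt, G6, Polynomial.eval_map_apply, eval_P6, e6])).comp
    (spThree (evalAt (algebraMap ℚ K t)) (c4 := polyAt _ (G4 c4 c6)) (c6 := polyAt _ (G6 c4 c6))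
      (by rw [ev_polyAt, ev_polyAt, G4, G6, Polynomial.eval_map_apply, Polynomial.eval_map_apply,
        eval_P4, eval_P6, e4, e6]; exact hd))

omit [IsAlgClosed K] in
lemma spAt3_injective (t : ℚ) {d4 d6 : K} (e4 : algebraMap ℚ K (cFour c4 c6 1 t) = d4)
    (e6 : algebraMap ℚ K (cSix c4 c6 1 t) = d6) (hd : d4 ^ 3 ≠ d6 ^ 2) :
    Function.Injective (spAt3 (c4 := c4) (c6 := c6) t e4 e6 hd) := by
  have hc : (evalAt (algebraMap ℚ K t)).ev (polyAt _ (G4 c4 c6)) ^ 3 ≠
      (evalAt (algebraMap ℚ K t)).ev (polyAt _ (G6 c4 c6)) ^ 2 := by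
    rw [ev_polyAt, ev_polyAt, G4, G6, Polynomial.eval_map_apply, Polynomial.eval_map_apply,
      eval_P4, eval_P6, e4, e6]
    exact hd
  exact fun P Q hPQ => spThree_injective (evalAt (algebraMap ℚ K t))
    (c4 := polyAt _ (G4 c4 c6)) (c6 := polyAt _ (G6 c4 c6)) hc
    (mapThree_injective _ _ _ hPQ)

lemma spAt3_commute (t : ℚ) {d4 d6 : K} (e4 : algebraMap ℚ K (cFour c4 c6 1 t) = d4)
    (e6 : algebraMap ℚ K (cSix c4 c6 1 t) = d6) (hd : d4 ^ 3 ≠ d6 ^ 2) (σ : K ≃+* K)
    (s4 : σ.toRingHom d4 = d4) (s6 : σ.toRingHom d6 = d6)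
    (P : Submodule.torsionBy ℤ (genCurve K c4 c6).Point 3) :
    spAt3 t e4 e6 hd (mapThree (coeffHom σ) (coeffHom_G σ _) (coeffHom_G σ _) P) =
      mapThree σ.toRingHom s4 s6 (spAt3 t e4 e6 hd P) := by
  set a := algebraMap ℚ K t with ha
  have v4 : (evalAt a).ev (polyAt a (G4 c4 c6)) = d4 := by
    rw [ev_polyAt, G4, Polynomial.eval_map_apply, eval_P4, e4]
  have v6 : (evalAt a).ev (polyAt a (G6 c4 c6)) = d6 := by
    rw [ev_polyAt, G6, Polynomial.eval_map_apply, eval_P6, e6]
  have hc : (evalAt a).ev (polyAt a (G4 c4 c6)) ^ 3 ≠ (evalAt a).ev (polyAt a (G6 c4 c6)) ^ 2 := by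
    rw [v4, v6]; exact hd
  have q4 : σ.toRingHom ((evalAt a).ev (polyAt a (G4 c4 c6))) =
      (evalAt a).ev (polyAt a (G4 c4 c6)) := by rw [v4, s4]
  have q6 : σ.toRingHom ((evalAt a).ev (polyAt a (G6 c4 c6))) =
      (evalAt a).ev (polyAt a (G6 c4 c6)) := by rw [v6, s6]
  have h3 : (3 : ℤ) • P.1 = 0 := (Submodule.mem_torsionBy_iff _ _).1 P.2
  have h1 := sp_mapSW (evalAt a) hc (coeffHom σ) σ.toRingHom (coeffHom_G σ _) (coeffHom_G σ _)
    q4 q6 (fun x hx => coeffHom_mem (fixes_rat σ t) hx) P.1 (isInt_of_three_smul (evalAt a) hc h3)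
  have h2 := mapSW_id_comm v4 v6 σ.toRingHom q4 q6 s4 s6 ((evalAt a).sp _ _ hc P.1)
  apply Subtype.ext
  exact (congrArg (mapSW (RingHom.id K) v4 v6) h1).trans h2

/-- The three-torsion of a member of the family is Galois-equivariantly that of the original
curve. -/
theorem exists_torsion_iso (h : c4 ^ 3 ≠ c6 ^ 2)
    (hcard : ∀ d4 d6 : K, d4 ^ 3 ≠ d6 ^ 2 →
      Nat.card (Submodule.torsionBy ℤ (SW d4 d6).Point 3) = 9)
    (t : ℚ) (ht : cFour c4 c6 1 t ^ 3 ≠ cSix c4 c6 1 t ^ 2) :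
    ∃ e : Submodule.torsionBy ℤ (SW (algebraMap ℚ K c4) (algebraMap ℚ K c6)).Point 3 ≃+
        Submodule.torsionBy ℤ (SW (algebraMap ℚ K (cFour c4 c6 1 t))
          (algebraMap ℚ K (cSix c4 c6 1 t))).Point 3,
      ∀ (σ : K ≃+* K) P,
        e (mapThree σ.toRingHom (fixes_rat σ c4) (fixes_rat σ c6) P) =
          mapThree σ.toRingHom (fixes_rat σ _) (fixes_rat σ _) (e P) := by
  have ne : ∀ {x y : ℚ}, x ^ 3 ≠ y ^ 2 → (algebraMap ℚ K x) ^ 3 ≠ (algebraMap ℚ K y) ^ 2 := by
    intro x y hxy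
    rw [← map_pow, ← map_pow]
    exact fun e => hxy ((algebraMap ℚ K).injective e)
  set f0 := spAt3 (K := K) (c4 := c4) (c6 := c6) 0 (congrArg _ (cFour_one_zero c4 c6))
    (congrArg _ (cSix_one_zero c4 c6)) (ne h) with hf0
  set ft := spAt3 (K := K) (c4 := c4) (c6 := c6) t rfl rfl (ne ht) with hft
  obtain ⟨g, hg⟩ := exists_embedding (K := K) h
  have bij : ∀ {d4 d6 : K}, d4 ^ 3 ≠ d6 ^ 2 →
      ∀ f : Submodule.torsionBy ℤ (genCurve K c4 c6).Point 3 →+
        Submodule.torsionBy ℤ (SW d4 d6).Point 3, Function.Injective f → Function.Bijective f := by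
    intro d4 d6 hd f hf
    have : Finite (Submodule.torsionBy ℤ (SW d4 d6).Point 3) :=
      Nat.finite_of_card_ne_zero (by rw [hcard _ _ hd]; norm_num)
    refine hf.bijective_of_nat_card_le ?_
    have : Finite (Submodule.torsionBy ℤ (genCurve K c4 c6).Point 3) := Finite.of_injective f hf
    calc Nat.card (Submodule.torsionBy ℤ (SW d4 d6).Point 3) = Nat.card (Fin 3 × Fin 3) := by
          rw [hcard _ _ hd, Nat.card_prod, Nat.card_fin]
      _ ≤ _ := Nat.card_le_card_of_injective g hg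
  have b0 := bij (ne h) f0 (spAt3_injective _ _ _ _)
  have bt := bij (ne ht) ft (spAt3_injective _ _ _ _)
  refine ⟨(AddEquiv.ofBijective f0 b0).symm.trans (AddEquiv.ofBijective ft bt), fun σ P => ?_⟩
  obtain ⟨Q, rfl⟩ := b0.2 P
  have key : ∀ R, (AddEquiv.ofBijective f0 b0).symm (f0 R) = R := fun R =>
    (AddEquiv.ofBijective f0 b0).symm_apply_apply R
  have c0 := spAt3_commute 0 (congrArg _ (cFour_one_zero c4 c6)) (congrArg _ (cSix_one_zero c4 c6))
    (ne h) σ (fixes_rat σ c4) (fixes_rat σ c6) Q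
  rw [← hf0] at c0
  rw [← c0]
  simp only [AddEquiv.trans_apply, key, AddEquiv.ofBijective_apply]
  exact spAt3_commute t rfl rfl (ne ht) σ (fixes_rat σ _) (fixes_rat σ _) Q

end Fermat.Agent.Row42
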